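/-
Project S33 (ordinary at `p` for the Hecke–Galois datum, `p ∥ N`), cell [S33-ALG] (helper27).
Prefix `s33a_`.  Namespace `Fermat.Agent.S33`.  Mathlib only.

* `s33a_A τ0 c : G →+ G`, `x ↦ τ0 • x - c • x` (same body as `s33r_A` of `S33/Rel.lean`);
  `s33a_aug Γ G` the augmentation subgroup `(Γ - 1) G` (generated by the `σ • y - y`);
* `s33a_key` ([ALG-KEY]) : `f : G1 ↠ G`, `ψ : G1 → B` equivariant; if `𝒜 ^ k0` kills the `σ • ψ y - ψ y`
  ((OLD)) and `𝒜 ^ k1` kills `ker ψ ∩ (Γ - 1) G1` ((GEO)), then `𝒜 ^ (k0 + k1)` kills `(Γ - 1) G`;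
* `s33a_devissage` : if `𝒜 = 0` on the `p`-torsion of a `Γ`-stable subgroup `X` killed by `p ^ n`, then
  `𝒜 ^ n = 0` on `X`;
* `s33a_top` ([ALG-TOP]) : `V` free of rank two over a noetherian local ring `T`, `In ⊴ D` acting on
  `V`, `(In - 1) V ⊆ T b 0 + 𝔪 V`, `τ0 ∈ In` with `ρ τ0 ≢ 1 mod 𝔪`, `c - 1` a unit and `ρ τ0 - c`
  nilpotent on `(In - 1) V` modulo every `𝔪 ^ n`.  Then `(In - 1) V` is a `D`-stable line spanned by
  the first vector of a basis (the conclusion of `GaloisRepAdic.IsOrdinaryAt` at one place).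
-/
import Mathlib

set_option autoImplicit false

noncomputable section

namespace Fermat.Agent.S33

open IsLocalRing

section Key

variable {Γ : Type*} [Group Γ] {G : Type*} [AddCommGroup G] [DistribMulAction Γ G]

/-- `𝒜 := τ0 - c` on a `Γ`-module. -/
def s33a_A (τ0 : Γ) (c : ℤ) : G →+ G where
  toFun x := τ0 • x - c • x
  map_zero' := by rw [smul_zero, smul_zero, sub_zero]
  map_add' x y := by rw [smul_add, smul_add]; abel

theorem s33a_A_apply (τ0 : Γ) (c : ℤ) (x : G) : s33a_A τ0 c x = τ0 • x - c • x := rfl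

variable (Γ G) in
/-- the augmentation subgroup `(Γ - 1) G`. -/
def s33a_aug : AddSubgroup G :=
  AddSubgroup.closure {x | ∃ (σ : Γ) (y : G), x = σ • y - y}

theorem s33a_sub_mem_aug (σ : Γ) (y : G) : σ • y - y ∈ s33a_aug Γ G :=
  AddSubgroup.subset_closure ⟨σ, y, rfl⟩

theorem s33a_smul_mem_aug (τ : Γ) {x : G} (hx : x ∈ s33a_aug Γ G) : τ • x ∈ s33a_aug Γ G := by
  induction hx using AddSubgroup.closure_induction with
  | mem x hx =>
    obtain ⟨σ, y, rfl⟩ := hx
    have h1 : τ • (σ • y - y) = (τ * σ * τ⁻¹) • (τ • y) - τ • y := by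
      rw [smul_sub, ← mul_smul, ← mul_smul, inv_mul_cancel_right]
    rw [h1]
    exact s33a_sub_mem_aug _ _
  | zero => rw [smul_zero]; exact AddSubgroup.zero_mem _
  | add x y _ _ hx hy => rw [smul_add]; exact AddSubgroup.add_mem _ hx hy
  | neg x _ hx => rw [smul_neg]; exact AddSubgroup.neg_mem _ hx

theorem s33a_A_mem_aug (τ0 : Γ) (c : ℤ) {x : G} (hx : x ∈ s33a_aug Γ G) :
    s33a_A τ0 c x ∈ s33a_aug Γ G := by
  rw [s33a_A_apply]
  exact AddSubgroup.sub_mem _ (s33a_smul_mem_aug τ0 hx) (AddSubgroup.zsmul_mem _ hx c)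

theorem s33a_iter_mem_aug (τ0 : Γ) (c : ℤ) (k : ℕ) {x : G} (hx : x ∈ s33a_aug Γ G) :
    (⇑(s33a_A (G := G) τ0 c))^[k] x ∈ s33a_aug Γ G := by
  induction k with
  | zero => exact hx
  | succ k ih =>
    rw [Function.iterate_succ_apply']
    exact s33a_A_mem_aug τ0 c ih

variable {G' : Type*} [AddCommGroup G'] [DistribMulAction Γ G']

theorem s33a_map_A (f : G →+ G') (hfe : ∀ (σ : Γ) (y : G), f (σ • y) = σ • f y) (τ0 : Γ) (c : ℤ)
    (x : G) : f (s33a_A τ0 c x) = s33a_A τ0 c (f x) := by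
  rw [s33a_A_apply, s33a_A_apply, map_sub, hfe, map_zsmul]

theorem s33a_map_iter (f : G →+ G') (hfe : ∀ (σ : Γ) (y : G), f (σ • y) = σ • f y) (τ0 : Γ) (c : ℤ)
    (k : ℕ) (x : G) :
    f ((⇑(s33a_A (G := G) τ0 c))^[k] x) = (⇑(s33a_A (G := G') τ0 c))^[k] (f x) := by
  induction k generalizing x with
  | zero => rfl
  | succ k ih =>
    rw [Function.iterate_succ_apply, Function.iterate_succ_apply, ih, s33a_map_A f hfe]

theorem s33a_map_aug (f : G →+ G') (hfe : ∀ (σ : Γ) (y : G), f (σ • y) = σ • f y) {x : G}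
    (hx : x ∈ s33a_aug Γ G) : f x ∈ s33a_aug Γ G' := by
  induction hx using AddSubgroup.closure_induction with
  | mem x hx =>
    obtain ⟨σ, y, rfl⟩ := hx
    rw [map_sub, hfe]
    exact s33a_sub_mem_aug _ _
  | zero => rw [map_zero]; exact AddSubgroup.zero_mem _
  | add x y _ _ hx hy => rw [map_add]; exact AddSubgroup.add_mem _ hx hy
  | neg x _ hx => rw [map_neg]; exact AddSubgroup.neg_mem _ hx

/-- the iterates of `𝒜` are additive. -/
theorem s33a_iter_hom (τ0 : Γ) (c : ℤ) (k : ℕ) :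
    ∃ g : G →+ G, ∀ x : G, g x = (⇑(s33a_A (G := G) τ0 c))^[k] x := by
  induction k with
  | zero => exact ⟨AddMonoidHom.id G, fun _ => rfl⟩
  | succ k ih =>
    obtain ⟨g, hg⟩ := ih
    refine ⟨(s33a_A τ0 c).comp g, fun x => ?_⟩
    rw [Function.iterate_succ_apply', AddMonoidHom.comp_apply, hg]

/-- an iterate of `𝒜` that kills the generators kills the augmentation subgroup. -/
theorem s33a_iter_aug_eq_zero (τ0 : Γ) (c : ℤ) (k : ℕ)
    (h : ∀ (σ : Γ) (y : G), (⇑(s33a_A (G := G) τ0 c))^[k] (σ • y - y) = 0) {x : G}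
    (hx : x ∈ s33a_aug Γ G) : (⇑(s33a_A (G := G) τ0 c))^[k] x = 0 := by
  obtain ⟨g, hg⟩ := s33a_iter_hom (G := G) τ0 c k
  rw [← hg]
  induction hx using AddSubgroup.closure_induction with
  | mem x hx =>
    obtain ⟨σ, y, rfl⟩ := hx
    rw [hg]
    exact h σ y
  | zero => rw [map_zero]
  | add x y _ _ hx hy => rw [map_add, hx, hy, add_zero]
  | neg x _ hx => rw [map_neg, hx, neg_zero]

/-- **[ALG-KEY]** -/
theorem s33a_key {G1 B : Type*} [AddCommGroup G1] [DistribMulAction Γ G1] [AddCommGroup B]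
    [DistribMulAction Γ B] (f : G1 →+ G) (hf : Function.Surjective f)
    (hfe : ∀ (σ : Γ) (y : G1), f (σ • y) = σ • f y) (ψ : G1 →+ B)
    (hψe : ∀ (σ : Γ) (y : G1), ψ (σ • y) = σ • ψ y) (τ0 : Γ) (c : ℤ) (k0 k1 : ℕ)
    (hold : ∀ (σ : Γ) (y : G1), (⇑(s33a_A (G := B) τ0 c))^[k0] (σ • ψ y - ψ y) = 0)
    (hgeo : ∀ y ∈ s33a_aug Γ G1, ψ y = 0 → (⇑(s33a_A (G := G1) τ0 c))^[k1] y = 0)
    (σ : Γ) (x : G) : (⇑(s33a_A (G := G) τ0 c))^[k0 + k1] (σ • x - x) = 0 := by
  obtain ⟨y, rfl⟩ := hf x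
  have h1 : σ • f y - f y = f (σ • y - y) := by rw [map_sub, hfe]
  rw [h1, ← s33a_map_iter f hfe, add_comm, Function.iterate_add_apply]
  have h2 : (⇑(s33a_A (G := G1) τ0 c))^[k0] (σ • y - y) ∈ s33a_aug Γ G1 :=
    s33a_iter_mem_aug τ0 c k0 (s33a_sub_mem_aug σ y)
  have h3 : ψ ((⇑(s33a_A (G := G1) τ0 c))^[k0] (σ • y - y)) = 0 := by
    rw [s33a_map_iter ψ hψe, map_sub, hψe]
    exact hold σ y
  rw [hgeo _ h2 h3, map_zero]

/-- **dévissage**: `𝒜 = 0` on `X[p]` implies `𝒜 ^ n = 0` on `X` (killed by `p ^ n`). -/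
theorem s33a_devissage (X : AddSubgroup G) (hX : ∀ (σ : Γ), ∀ x ∈ X, σ • x ∈ X) (p : ℕ) (τ0 : Γ)
    (c : ℤ) (h1 : ∀ x ∈ X, p • x = 0 → s33a_A τ0 c x = 0) (n : ℕ) {x : G} (hx : x ∈ X)
    (hpx : p ^ n • x = 0) : (⇑(s33a_A (G := G) τ0 c))^[n] x = 0 := by
  induction n generalizing x with
  | zero => rwa [pow_zero, one_smul] at hpx
  | succ n ih =>
    rw [Function.iterate_succ_apply]
    have hAx : s33a_A τ0 c x ∈ X := by
      rw [s33a_A_apply]
      exact X.sub_mem (hX τ0 x hx) (X.zsmul_mem hx c)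
    refine ih hAx ?_
    rw [← map_nsmul]
    refine h1 _ (X.nsmul_mem hx _) ?_
    rw [← mul_nsmul', ← pow_succ']
    exact hpx

end Key

section Top

variable {T : Type*} [CommRing T] {V : Type*} [AddCommGroup V] [Module T V]

/-- a linear functional maps `J • ⊤` into `J`. -/
theorem s33a_functional_mem (J : Ideal T) (ℓ : V →ₗ[T] T) {x : V}
    (hx : x ∈ J • (⊤ : Submodule T V)) : ℓ x ∈ J := by
  induction hx using Submodule.smul_induction_on' with
  | smul a ha w _ =>
    rw [map_smul, smul_eq_mul]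
    exact J.mul_mem_right _ ha
  | add x _ y _ hx hy =>
    rw [map_add]
    exact J.add_mem hx hy

/-- an endomorphism maps `J • ⊤` into `J • ⊤`. -/
theorem s33a_end_mem (J : Ideal T) (g : Module.End T V) {x : V}
    (hx : x ∈ J • (⊤ : Submodule T V)) : g x ∈ J • (⊤ : Submodule T V) := by
  induction hx using Submodule.smul_induction_on' with
  | smul a ha w _ =>
    rw [map_smul]
    exact Submodule.smul_mem_smul ha Submodule.mem_top
  | add x _ y _ hx hy =>
    rw [map_add]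
    exact Submodule.add_mem _ hx hy

/-- `(φ - u) ^ k = (-u) ^ k + Q φ` with `Q` commuting with `φ` and preserving every `φ`-stable
submodule. -/
theorem s33a_binom (φ : Module.End T V) (u : T) (k : ℕ) :
    ∃ Q : Module.End T V, Commute Q φ ∧
      (∀ M : Submodule T V, (∀ x ∈ M, φ x ∈ M) → ∀ x ∈ M, Q x ∈ M) ∧
      (φ - u • (1 : Module.End T V)) ^ k = (-u) ^ k • (1 : Module.End T V) + Q * φ := by
  induction k with
  | zero =>
    refine ⟨0, Commute.zero_left φ, fun M _ x _ => ?_, ?_⟩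
    · rw [LinearMap.zero_apply]
      exact M.zero_mem
    · rw [pow_zero, pow_zero, one_smul, zero_mul, add_zero]
  | succ k ih =>
    obtain ⟨Q, hQc, hQM, hQ⟩ := ih
    refine ⟨(-u) ^ k • (1 : Module.End T V) + (φ - u • (1 : Module.End T V)) * Q, ?_, ?_, ?_⟩
    · refine Commute.add_left ((Commute.one_left φ).smul_left _) ?_
      refine Commute.mul_left ?_ hQc
      exact Commute.sub_left (Commute.refl φ) ((Commute.one_left φ).smul_left _)
    · intro M hM x hx
      rw [LinearMap.add_apply, LinearMap.smul_apply, Module.End.one_apply, Module.End.mul_apply,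
        LinearMap.sub_apply, LinearMap.smul_apply, Module.End.one_apply]
      have h1 := hQM M hM x hx
      exact M.add_mem (M.smul_mem _ hx) (M.sub_mem (hM _ h1) (M.smul_mem _ h1))
    · rw [pow_succ', hQ, mul_add, add_mul, ← mul_assoc, pow_succ]
      rw [mul_smul_comm, mul_one, sub_smul_comm_aux φ u k]
      abel
where
  sub_smul_comm_aux (φ : Module.End T V) (u : T) (k : ℕ) :
      (-u) ^ k • (φ - u • (1 : Module.End T V)) =
        ((-u) ^ k * -u) • (1 : Module.End T V) + ((-u) ^ k • (1 : Module.End T V)) * φ := by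
    rw [smul_sub, smul_mul_assoc, one_mul, smul_smul, mul_neg, neg_smul]
    abel

end Top

section Main

variable {T : Type*} [CommRing T] [IsLocalRing T] {V : Type*} [AddCommGroup V] [Module T V]
  {Γ : Type*} [Group Γ]

/-- `(In - 1) V`, the submodule spanned by the `ρ σ v - v`, `σ ∈ In`. -/
def s33a_M (ρ : Γ →* Module.End T V) (In : Subgroup Γ) : Submodule T V :=
  Submodule.span T {x | ∃ σ ∈ In, ∃ v : V, x = ρ σ v - v}

omit [IsLocalRing T] in
theorem s33a_sub_mem_M (ρ : Γ →* Module.End T V) (In : Subgroup Γ) {σ : Γ} (hσ : σ ∈ In) (v : V) :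
    ρ σ v - v ∈ s33a_M ρ In :=
  Submodule.subset_span ⟨σ, hσ, v, rfl⟩

omit [IsLocalRing T] in
/-- `(In - 1) V` is stable under every `δ` normalising `In`. -/
theorem s33a_M_stable (ρ : Γ →* Module.End T V) (In : Subgroup Γ) (δ : Γ)
    (hδ : ∀ σ ∈ In, δ * σ * δ⁻¹ ∈ In) {x : V} (hx : x ∈ s33a_M ρ In) : ρ δ x ∈ s33a_M ρ In := by
  induction hx using Submodule.span_induction with
  | mem x hx =>
    obtain ⟨σ, hσ, v, rfl⟩ := hx
    have h1 : ρ δ (ρ σ v - v) = ρ (δ * σ * δ⁻¹) (ρ δ v) - ρ δ v := by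
      rw [map_sub, ← Module.End.mul_apply, ← Module.End.mul_apply, ← map_mul, ← map_mul,
        inv_mul_cancel_right]
    rw [h1]
    exact s33a_sub_mem_M ρ In (hδ σ hσ) _
  | zero => rw [map_zero]; exact Submodule.zero_mem _
  | add x y _ _ hx hy => rw [map_add]; exact Submodule.add_mem _ hx hy
  | smul a x _ hx => rw [map_smul]; exact Submodule.smul_mem _ _ hx

/-- **[ALG-TOP]** -/
theorem s33a_top [IsNoetherianRing T] (ρ : Γ →* Module.End T V) (D In : Subgroup Γ)
    (hnorm : ∀ δ ∈ D, ∀ σ ∈ In, δ * σ * δ⁻¹ ∈ In) (b : Module.Basis (Fin 2) T V)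
    (hres : ∀ σ ∈ In, ∀ v : V,
      ρ σ v - v ∈ (T ∙ b 0) ⊔ (maximalIdeal T) • (⊤ : Submodule T V))
    (τ0 : Γ) (hτ0 : τ0 ∈ In) (c : T) (hc : IsUnit (c - 1))
    (hram : ∃ v : V, ρ τ0 v - v ∉ (maximalIdeal T) • (⊤ : Submodule T V))
    (hnilp : ∀ n : ℕ, ∃ k : ℕ, ∀ σ ∈ In, ∀ v : V,
      ((ρ τ0 - c • (1 : Module.End T V)) ^ k) (ρ σ v - v) ∈
        (maximalIdeal T ^ n) • (⊤ : Submodule T V)) :
    ∃ L : Submodule T V, (∃ b' : Module.Basis (Fin 2) T V, L = T ∙ b' 0) ∧
      (∀ δ ∈ D, ∀ v ∈ L, ρ δ v ∈ L) ∧ (∀ σ ∈ In, ∀ v : V, ρ σ v - v ∈ L) := by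
  classical
  set M : Submodule T V := s33a_M ρ In with hMdef
  set φ : Module.End T V := ρ τ0 - 1 with hφdef
  set u : T := c - 1 with hudef
  have hA : ρ τ0 - c • (1 : Module.End T V) = φ - u • (1 : Module.End T V) := by
    rw [hφdef, hudef, sub_smul, one_smul]
    abel
  have hφV : ∀ v : V, φ v ∈ M := by
    intro v
    rw [hφdef, LinearMap.sub_apply, Module.End.one_apply]
    exact s33a_sub_mem_M ρ In hτ0 v
  have hφM : ∀ x ∈ M, φ x ∈ M := fun x _ => hφV x
  -- (d) the second coordinate of `M` lies in `𝔪`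
  have hcoord0 : b.coord 1 (b 0) = 0 := by
    rw [Module.Basis.coord_apply, Module.Basis.repr_self, Finsupp.single_apply]
    simp
  have hcoord1 : b.coord 1 (b 1) = 1 := by
    rw [Module.Basis.coord_apply, Module.Basis.repr_self, Finsupp.single_apply]
    simp
  have hsplit : ∀ x ∈ (T ∙ b 0) ⊔ (maximalIdeal T) • (⊤ : Submodule T V),
      ∃ (t : T) (y : V), y ∈ (maximalIdeal T) • (⊤ : Submodule T V) ∧ x = t • b 0 + y := by
    intro x hx
    obtain ⟨x0, hx0, y, hy, rfl⟩ := Submodule.mem_sup.mp hx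
    obtain ⟨t, rfl⟩ := Submodule.mem_span_singleton.mp hx0
    exact ⟨t, y, hy, rfl⟩
  have hd : ∀ x ∈ M, b.coord 1 x ∈ maximalIdeal T := by
    intro x hx
    induction hx using Submodule.span_induction with
    | mem x hx =>
      obtain ⟨σ, hσ, v, rfl⟩ := hx
      obtain ⟨t, y, hy, hxy⟩ := hsplit _ (hres σ hσ v)
      rw [hxy, map_add, map_smul, hcoord0, smul_zero, zero_add]
      exact s33a_functional_mem _ _ hy
    | zero => rw [map_zero]; exact Ideal.zero_mem _
    | add x y _ _ hx hy => rw [map_add]; exact Ideal.add_mem _ hx hy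
    | smul a x _ hx => rw [map_smul, smul_eq_mul]; exact Ideal.mul_mem_left _ _ hx
  -- (e) nilpotence on `M`
  have he : ∀ n : ℕ, ∃ k : ℕ, ∀ x ∈ M,
      ((φ - u • (1 : Module.End T V)) ^ k) x ∈ (maximalIdeal T ^ n) • (⊤ : Submodule T V) := by
    intro n
    obtain ⟨k, hk⟩ := hnilp n
    refine ⟨k, fun x hx => ?_⟩
    rw [← hA]
    induction hx using Submodule.span_induction with
    | mem x hx =>
      obtain ⟨σ, hσ, v, rfl⟩ := hx
      exact hk σ hσ v
    | zero => rw [map_zero]; exact Submodule.zero_mem _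
    | add x y _ _ hx hy => rw [map_add]; exact Submodule.add_mem _ hx hy
    | smul a x _ hx => rw [map_smul]; exact Submodule.smul_mem _ _ hx
  -- (f) a vector of `M` whose first coordinate is a unit
  obtain ⟨w, hwM, hw⟩ : ∃ w ∈ M, IsUnit (b.coord 0 w) := by
    obtain ⟨v, hv⟩ := hram
    refine ⟨ρ τ0 v - v, s33a_sub_mem_M ρ In hτ0 v, ?_⟩
    obtain ⟨t, y, hy, hxy⟩ := hsplit _ (hres τ0 hτ0 v)
    have ht : IsUnit t := by
      by_contra hnt
      apply hv
      rw [hxy]
      refine Submodule.add_mem _ ?_ hy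
      exact Submodule.smul_mem_smul ((mem_maximalIdeal t).mpr hnt) Submodule.mem_top
    have h00 : b.coord 0 (b 0) = 1 := by
      rw [Module.Basis.coord_apply, Module.Basis.repr_self, Finsupp.single_apply]
      simp
    rw [hxy, map_add, map_smul, h00, smul_eq_mul, mul_one]
    have hy' : b.coord 0 y ∈ maximalIdeal T := s33a_functional_mem _ _ hy
    by_contra hn
    have h2 : t + b.coord 0 y ∈ maximalIdeal T := (mem_maximalIdeal _).mpr hn
    have h3 : t ∈ maximalIdeal T := by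
      have := Ideal.sub_mem _ h2 hy'
      rwa [add_sub_cancel_right] at this
    exact (mem_maximalIdeal t).mp h3 ht
  -- the annihilator of `V / M` vanishes
  have hann : ∀ t : T, t • b 1 ∈ M → t = 0 := by
    intro t ht
    have hall : ∀ n : ℕ, t ∈ maximalIdeal T ^ n := by
      intro n
      obtain ⟨k, hk⟩ := he n
      obtain ⟨Q, hQc, hQM, hQ⟩ := s33a_binom φ u k
      have huk : IsUnit ((-u) ^ k) := (hc.neg).pow k
      obtain ⟨ν, hν⟩ := huk.exists_left_inv
      -- (surj)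
      have hsurj : ∀ x ∈ M, ∃ x' ∈ M,
          φ x' - x ∈ (maximalIdeal T ^ n) • (⊤ : Submodule T V) := by
        intro x hx
        refine ⟨-(ν • Q x), M.neg_mem (M.smul_mem _ (hQM M hφM x hx)), ?_⟩
        have h1 := hk x hx
        rw [hQ, LinearMap.add_apply, LinearMap.smul_apply, Module.End.one_apply,
          Module.End.mul_apply] at h1
        have h2 : φ (-(ν • Q x)) - x = -(ν • ((-u) ^ k • x + Q (φ x))) := by
          have h3 : Q (φ x) = φ (Q x) := by
            rw [← Module.End.mul_apply, ← Module.End.mul_apply, hQc.eq]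
          rw [h3, map_neg, map_smul, smul_add, smul_smul, hν, one_smul]
          abel
        rw [h2]
        exact Submodule.neg_mem _ (Submodule.smul_mem _ _ h1)
      -- (inj)
      have hinj : ∀ x ∈ M, φ x ∈ (maximalIdeal T ^ n) • (⊤ : Submodule T V) →
          x ∈ (maximalIdeal T ^ n) • (⊤ : Submodule T V) := by
        intro x hx hφx
        have h1 := hk x hx
        rw [hQ, LinearMap.add_apply, LinearMap.smul_apply, Module.End.one_apply,
          Module.End.mul_apply] at h1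
        have h2 : (-u) ^ k • x ∈ (maximalIdeal T ^ n) • (⊤ : Submodule T V) := by
          have := Submodule.sub_mem _ h1 (s33a_end_mem _ Q hφx)
          rwa [add_sub_cancel_right] at this
        have h3 := Submodule.smul_mem _ ν h2
        rwa [smul_smul, hν, one_smul] at h3
      obtain ⟨n1, hn1M, hn1⟩ := hsurj (φ (b 1)) (hφV _)
      have hk1 : t • (b 1 - n1) ∈ (maximalIdeal T ^ n) • (⊤ : Submodule T V) := by
        refine hinj _ ?_ ?_
        · rw [smul_sub]
          exact M.sub_mem ht (M.smul_mem _ hn1M)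
        · rw [map_smul, map_sub]
          have := Submodule.smul_mem _ t (Submodule.neg_mem _ hn1)
          rwa [neg_sub] at this
      have h4 := s33a_functional_mem _ (b.coord 1) hk1
      rw [map_smul, map_sub, hcoord1, smul_eq_mul] at h4
      have h5 : IsUnit (1 - b.coord 1 n1) := by
        by_contra hn
        have h6 : 1 - b.coord 1 n1 ∈ maximalIdeal T := (mem_maximalIdeal _).mpr hn
        have h7 := Ideal.add_mem _ h6 (hd n1 hn1M)
        rw [sub_add_cancel] at h7
        exact (Ideal.ne_top_iff_one _).mp (maximalIdeal.isMaximal T).ne_top h7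
      obtain ⟨ν', hν'⟩ := h5.exists_right_inv
      have h8 := Ideal.mul_mem_right ν' _ h4
      rwa [mul_assoc, hν', mul_one] at h8
    have hbot : t ∈ (⨅ i : ℕ, maximalIdeal T ^ i) := by
      rw [Ideal.mem_iInf]
      exact hall
    rw [Ideal.iInf_pow_eq_bot_of_isLocalRing _ (maximalIdeal.isMaximal T).ne_top] at hbot
    exact hbot
  -- the new basis `(w, b 1)`
  obtain ⟨ν0, hν0⟩ := hw.exists_left_inv
  have hwexp : w = b.coord 0 w • b 0 + b.coord 1 w • b 1 := by
    conv_lhs => rw [← b.sum_repr w, Fin.sum_univ_two]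
    rfl
  have hb0 : b 0 = ν0 • w - (ν0 * b.coord 1 w) • b 1 := by
    have h1 := congrArg (fun z => ν0 • z) hwexp
    simp only [smul_add, smul_smul, hν0, one_smul] at h1
    rw [h1, add_sub_cancel_right]
  have hspan : ⊤ ≤ Submodule.span T (Set.range ![w, b 1]) := by
    rw [← b.span_eq, Submodule.span_le]
    rintro _ ⟨i, rfl⟩
    have hw' : w ∈ Submodule.span T (Set.range ![w, b 1]) :=
      Submodule.subset_span ⟨0, rfl⟩
    have hb1' : b 1 ∈ Submodule.span T (Set.range ![w, b 1]) :=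
      Submodule.subset_span ⟨1, rfl⟩
    fin_cases i
    · show b 0 ∈ _
      rw [hb0]
      exact Submodule.sub_mem _ (Submodule.smul_mem _ _ hw') (Submodule.smul_mem _ _ hb1')
    · exact hb1'
  have hcard : Fintype.card (Fin 2) = Module.finrank T V := by
    rw [Module.finrank_eq_card_basis b]
  let b' : Module.Basis (Fin 2) T V := basisOfTopLeSpanOfCardEqFinrank ![w, b 1] hspan hcard
  have hb'0 : b' 0 = w := by
    show (basisOfTopLeSpanOfCardEqFinrank ![w, b 1] hspan hcard) 0 = w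
    rw [coe_basisOfTopLeSpanOfCardEqFinrank]
    rfl
  have hb'1 : b' 1 = b 1 := by
    show (basisOfTopLeSpanOfCardEqFinrank ![w, b 1] hspan hcard) 1 = b 1
    rw [coe_basisOfTopLeSpanOfCardEqFinrank]
    rfl
  have hML : M = T ∙ b' 0 := by
    apply le_antisymm
    · intro x hx
      have hx' : x = b'.repr x 0 • w + b'.repr x 1 • b 1 := by
        conv_lhs => rw [← b'.sum_repr x, Fin.sum_univ_two, hb'0, hb'1]
      have h1 : b'.repr x 1 • b 1 ∈ M := by
        have : b'.repr x 1 • b 1 = x - b'.repr x 0 • w := by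
          rw [eq_sub_iff_add_eq, add_comm]
          exact hx'.symm
        rw [this]
        exact M.sub_mem hx (M.smul_mem _ hwM)
      rw [hann _ h1, zero_smul, add_zero] at hx'
      rw [hx', hb'0]
      exact Submodule.smul_mem _ _ (Submodule.mem_span_singleton_self w)
    · rw [Submodule.span_singleton_le_iff_mem, hb'0]
      exact hwM
  refine ⟨M, ⟨b', hML⟩, fun δ hδ v hv => ?_, fun σ hσ v => s33a_sub_mem_M ρ In hσ v⟩
  exact s33a_M_stable ρ In δ (hnorm δ hδ) hv

end Main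

section Bridge

variable {T : Type*} [CommRing T] {V : Type*} [AddCommGroup V] [Module T V]

/-- from nilpotence of `𝒜` in a quotient `π : V → Q` with `ker π ⊆ J V` to the hypothesis `hnilp` of
`s33a_top`. -/
theorem s33a_nilp_bridge (J : Ideal T) (g : Module.End T V) (c : ℤ) (k : ℕ) (x : V)
    {Q : Type*} [AddCommGroup Q] (π : V →+ Q)
    (hπ : ∀ y : V, π y = 0 → y ∈ J • (⊤ : Submodule T V)) (A : Q → Q)
    (hA : ∀ y : V, π (g y - c • y) = A (π y)) (h : A^[k] (π x) = 0) :
    ((g - ((c : ℤ) : T) • (1 : Module.End T V)) ^ k) x ∈ J • (⊤ : Submodule T V) := by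
  apply hπ
  rw [← h]
  clear h
  induction k generalizing x with
  | zero => rfl
  | succ k ih =>
    rw [pow_succ, Module.End.mul_apply, ih, Function.iterate_succ_apply, ← hA,
      LinearMap.sub_apply, LinearMap.smul_apply, Module.End.one_apply, Int.cast_smul_eq_zsmul]

/-- `c - 1` is a unit of a local ring of residue characteristic `p` when `p ∤ c - 1`. -/
theorem s33a_isUnit_sub_one [IsLocalRing T] (p : ℕ) (hp : p.Prime)
    (hpT : (p : T) ∈ maximalIdeal T) (c : ℤ) (hc : ¬ (p : ℤ) ∣ c - 1) :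
    IsUnit (((c : ℤ) : T) - 1) := by
  have hcop : IsCoprime (c - 1) (p : ℤ) :=
    ((Nat.prime_iff_prime_int.mp hp).coprime_iff_not_dvd.mpr hc).symm
  obtain ⟨a, b', hab⟩ := hcop
  have h1 : ((a : ℤ) : T) * (((c : ℤ) : T) - 1) = 1 - ((b' : ℤ) : T) * (p : T) := by
    have h2 := congrArg (fun z : ℤ => (z : T)) hab
    simp only [Int.cast_add, Int.cast_mul, Int.cast_sub, Int.cast_one, Int.cast_natCast] at h2
    linear_combination h2
  have h3 : IsUnit (1 - ((b' : ℤ) : T) * (p : T)) := by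
    by_contra hn
    have h4 : 1 - ((b' : ℤ) : T) * (p : T) ∈ maximalIdeal T := (mem_maximalIdeal _).mpr hn
    have h5 := Ideal.add_mem _ h4 (Ideal.mul_mem_left _ ((b' : ℤ) : T) hpT)
    rw [sub_add_cancel] at h5
    exact (Ideal.ne_top_iff_one _).mp (maximalIdeal.isMaximal T).ne_top h5
  rw [← h1] at h3
  exact isUnit_of_mul_isUnit_right h3

end Bridge

end Fermat.Agent.S33
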