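/-
Project S33 (ordinary at `p ∥ N`), cell [S33-ORD] (helper17).  Prefix `s33o_`.
Namespace `Fermat.Agent.S33`.

ORDERS AT A PLACE OVER `p` ON THE `G_ℚ`-SUBMODULES OF FINITE POWERS OF `J₀(M')[p ^ k]`, `p ∤ M'`.

The order of `J₀(M')[p ^ k]` is the one of S19 (the three seams as they are instantiated in
`S32.lean`); orders pass to equivariant subobjects of finite powers (`ffc_ord_subquot`); an order is
a finite flat Hopf algebra ([HO], `ffh_seamHO`); and a Hopf model gives, at every place `P` over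
`p` with inertia group `Γ = I_P`, an order over `O = P ∩ Q̄^{I_P}` in the sense of [HOPF]
(`s56fb_isOrder`, as in `s56fb_main`).

* `s33o_ffOrder_tors` : the order of `J₀(M')[p ^ k]` (`ff_IsOrder`), `p ∤ M'`;
* `s33o_ffOrder`      : the order of a finite `G_ℚ`-module `B` embedded equivariantly in a finite
                        power of `J₀(M')[p ^ k]`;
* `s33o_hopf`         : its Hopf model;
* `s33o_order_of_hopf`: a Hopf model gives an order at every place over `p`;
* **`s33o_order`**    : the order of `B` at a place `P` over `p`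
                        (`mzo_IsOrder P I_P B HP`, with the local setting `mzg_ctx p P hP`);
* `s33o_order_sub`    : the same for a `G_ℚ`-stable subgroup of a finite power.
-/
import Mathlib
import Fermat.Agent.FF.FinalInst
import Fermat.Agent.FF.Car.S32
import Fermat.Agent.FF.Inst.Main
import Fermat.Agent.FF.Inst.Pkg.DKap
import Fermat.Agent.S56.Flat.BridgeInst

set_option autoImplicit false
set_option linter.unusedSectionVars false

noncomputable section

namespace Fermat.Agent.S33

open Fermat.Agent.FF Fermat.Agent.MZ Fermat.Agent.S56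

/-- the order of `J₀(M')[p ^ k]`, `p ∤ M'` (S19, with the seams instantiated as in `S32.lean`) -/
theorem s33o_ffOrder_tors (M' p : ℕ) [NeZero M'] [Fact p.Prime] (hpM : ¬ p ∣ M') (k : ℕ) :
    ∃ H : Subalgebra (ff_R p)
      (↥(Submodule.torsionBy ℤ (ModularCurve.JZero M') ((p : ℤ) ^ k)) → ff_Qb),
      ff_IsOrder p ↥(Submodule.torsionBy ℤ (ModularCurve.JZero M') ((p : ℤ) ^ k)) H :=
  ffc_s32_order_of_seams M' p k ffx_seamDESC
    (ff_local_of_inst M' p k (ffi_inst_of_leaves M' p hpM k (ffi_dkap M' p)))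

/-- the order of a finite `G_ℚ`-module embedded equivariantly in a finite power of
`J₀(M')[p ^ k]` -/
theorem s33o_ffOrder (M' p : ℕ) [NeZero M'] [Fact p.Prime] (hpM : ¬ p ∣ M') (k s : ℕ)
    {B : Type} [AddCommGroup B] [DistribMulAction ff_GQ B]
    (j : B →+ (Fin s → ↥(Submodule.torsionBy ℤ (ModularCurve.JZero M') ((p : ℤ) ^ k))))
    (hj : Function.Injective j) (hje : ∀ (σ : ff_GQ) (b : B), j (σ • b) = σ • j b) :
    ∃ H : Subalgebra (ff_R p) (B → ff_Qb), ff_IsOrder p B H := by
  have := ff_finite_tors M' p k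
  exact ffc_ord_subquot (s33o_ffOrder_tors M' p hpM k) s j hj hje (AddMonoidHom.id B)
    Function.surjective_id (fun _ _ => rfl)

/-- such a module is finite -/
theorem s33o_finite (M' p : ℕ) [NeZero M'] [Fact p.Prime] (k s : ℕ)
    {B : Type} [AddCommGroup B]
    (j : B →+ (Fin s → ↥(Submodule.torsionBy ℤ (ModularCurve.JZero M') ((p : ℤ) ^ k))))
    (hj : Function.Injective j) : Finite B := by
  have := ff_finite_tors M' p k
  exact Finite.of_injective j hj

/-- its Hopf model ([HO]) -/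
theorem s33o_hopf (M' p : ℕ) [NeZero M'] [Fact p.Prime] (hpM : ¬ p ∣ M') (k s : ℕ)
    {B : Type} [AddCommGroup B] [DistribMulAction ff_GQ B]
    (j : B →+ (Fin s → ↥(Submodule.torsionBy ℤ (ModularCurve.JZero M') ((p : ℤ) ^ k))))
    (hj : Function.Injective j) (hje : ∀ (σ : ff_GQ) (b : B), j (σ • b) = σ • j b) :
    ff_HasHopfModel p B := by
  have := s33o_finite M' p k s j hj
  obtain ⟨H, hH⟩ := s33o_ffOrder M' p hpM k s j hj hje
  exact ffh_seamHO p B H hH

/-- **a Hopf model gives an order at every place over `p`** (the proof of `s56fb_main`) -/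
theorem s33o_order_of_hopf (p : ℕ) [Fact p.Prime] {B : Type} [AddCommGroup B]
    [DistribMulAction ff_GQ B] (hB : ff_HasHopfModel p B)
    (P : ValuationSubring ff_Qb) (hP : P.LiesOverPrime p) :
    ∃ HP : Subalgebra ↥(ffi_O P ↥(ffi_L P)) (B → ff_Qb),
      mzo_IsOrder P ↥(P.inertiaSubgroupIn ℚ) B HP := by
  obtain ⟨H, instR, instH, hfin, -, -, e, he, hact⟩ := hB
  have hctx := mzg_ctx p P hP
  have : IsDiscreteValuationRing ↥(ffi_O P ↥(ffi_L P)) := mzg_ctx_dvr p P hP
  refine ⟨s56fb_order ↥(ffi_O P ↥(ffi_L P)) e, ?_⟩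
  refine s56fb_isOrder P (fun o => hctx.mem_A o) (fun σ o => hctx.fixed o σ)
    (s56fb_lam_mem p P hP) e he ?_
  intro σ f g hfg
  exact hact (σ : ff_GQ) f g hfg

/-- **[S33-ORD]**: the order at a place `P` over `p ∤ M'` of a `G_ℚ`-module embedded
equivariantly in a finite power of `J₀(M')[p ^ k]`. -/
theorem s33o_order (M' p : ℕ) [NeZero M'] [Fact p.Prime] (hpM : ¬ p ∣ M') (k s : ℕ)
    {B : Type} [AddCommGroup B] [DistribMulAction ff_GQ B]
    (j : B →+ (Fin s → ↥(Submodule.torsionBy ℤ (ModularCurve.JZero M') ((p : ℤ) ^ k))))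
    (hj : Function.Injective j) (hje : ∀ (σ : ff_GQ) (b : B), j (σ • b) = σ • j b)
    (P : ValuationSubring ff_Qb) (hP : P.LiesOverPrime p) :
    ∃ HP : Subalgebra ↥(ffi_O P ↥(ffi_L P)) (B → ff_Qb),
      mzo_IsOrder P ↥(P.inertiaSubgroupIn ℚ) B HP :=
  s33o_order_of_hopf p (s33o_hopf M' p hpM k s j hj hje) P hP

/-- the `G_ℚ`-action on a stable subgroup (a reducible definition, to be installed with
`letI`) -/
@[reducible] def s33o_subAct {M : Type} [AddCommGroup M] [DistribMulAction ff_GQ M]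
    (W : AddSubgroup M) (hW : ∀ σ : ff_GQ, ∀ w ∈ W, σ • w ∈ W) : DistribMulAction ff_GQ ↥W where
  smul σ w := ⟨σ • (w : M), hW σ w w.2⟩
  one_smul w := Subtype.ext (one_smul _ _)
  mul_smul σ τ w := Subtype.ext (mul_smul _ _ _)
  smul_zero σ := Subtype.ext (smul_zero _)
  smul_add σ w w' := Subtype.ext (smul_add _ _ _)

theorem s33o_subAct_coe {M : Type} [AddCommGroup M] [DistribMulAction ff_GQ M]
    (W : AddSubgroup M) (hW : ∀ σ : ff_GQ, ∀ w ∈ W, σ • w ∈ W) (σ : ff_GQ) (w : ↥W) :
    letI := s33o_subAct W hW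
    ((σ • w : ↥W) : M) = σ • (w : M) := rfl

/-- **[S33-ORD]**, subgroup form: the order at a place `P` over `p ∤ M'` of a `G_ℚ`-stable
subgroup of a finite power of `J₀(M')[p ^ k]`. -/
theorem s33o_order_sub (M' p : ℕ) [NeZero M'] [Fact p.Prime] (hpM : ¬ p ∣ M') (k s : ℕ)
    (W : AddSubgroup (Fin s → ↥(Submodule.torsionBy ℤ (ModularCurve.JZero M') ((p : ℤ) ^ k))))
    (hW : ∀ σ : ff_GQ, ∀ w ∈ W, σ • w ∈ W)
    (P : ValuationSubring ff_Qb) (hP : P.LiesOverPrime p) :
    letI := s33o_subAct W hW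
    ∃ HP : Subalgebra ↥(ffi_O P ↥(ffi_L P)) (↥W → ff_Qb),
      mzo_IsOrder P ↥(P.inertiaSubgroupIn ℚ) ↥W HP := by
  letI := s33o_subAct W hW
  exact s33o_order M' p hpM k s W.subtype Subtype.val_injective (fun _ _ => rfl) P hP

/-- the same for a `G_ℚ`-module which is an equivariant QUOTIENT of a stable subgroup of a finite
power (a subquotient): `ff_IsOrder` passes to quotients (`ffc_ord_subquot`). -/
theorem s33o_order_subquot (M' p : ℕ) [NeZero M'] [Fact p.Prime] (hpM : ¬ p ∣ M') (k s : ℕ)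
    {W B : Type} [AddCommGroup W] [DistribMulAction ff_GQ W] [AddCommGroup B]
    [DistribMulAction ff_GQ B]
    (j : W →+ (Fin s → ↥(Submodule.torsionBy ℤ (ModularCurve.JZero M') ((p : ℤ) ^ k))))
    (hj : Function.Injective j) (hje : ∀ (σ : ff_GQ) (w : W), j (σ • w) = σ • j w)
    (f : W →+ B) (hf : Function.Surjective f) (hfe : ∀ (σ : ff_GQ) (w : W), f (σ • w) = σ • f w)
    (P : ValuationSubring ff_Qb) (hP : P.LiesOverPrime p) :
    ∃ HP : Subalgebra ↥(ffi_O P ↥(ffi_L P)) (B → ff_Qb),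
      mzo_IsOrder P ↥(P.inertiaSubgroupIn ℚ) B HP := by
  have := ff_finite_tors M' p k
  have hW : Finite W := Finite.of_injective j hj
  have hB : Finite B := Finite.of_surjective f hf
  obtain ⟨H, hH⟩ := ffc_ord_subquot (s33o_ffOrder_tors M' p hpM k) s j hj hje f hf hfe
  exact s33o_order_of_hopf p (ffh_seamHO p B H hH) P hP

end Fermat.Agent.S33
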