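/-
Project S33 (ordinary at `p` for the Hecke–Galois datum, `p ∥ N`), cell [S33-REL] (helper13).
Prefix `s33r_`.  Namespace `Fermat.Agent.S33`.  Imports `S56/Flat/Ord/Line` (+ `MZ/Hopf`).

THE OLD PART (helper27's study #4030, step (OLD)).  Setting of `S56/Flat`: `hctx : mzo_Ctx r O L A Γ`
(`r = p` odd, `Γ` = inertia, `e = 1`), `G` a finite `Γ`-module with an order `H`
(`mzo_IsOrder A Γ G H`), `X⁰ = s56fl_X0 hH` its connected part.  For `τ0 ∈ Γ`, `c ∈ ℤ` put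
`𝒜 := τ0 - c` (`s33r_A τ0 c : G →+ G`).

* `s33r_step` : `F' ≤ F` two `Γ`-stable subgroups with `r F ⊆ F'` and `𝒜 (σ z - z) ∈ F'` for all
                `σ ∈ Γ`, `z ∈ F` ("`𝒜` kills `(I - 1) (F / F')`").  Then `𝒜 (X⁰ ∩ F) ⊆ X⁰ ∩ F'`.
                [restricted order on `F` + (REL) with the trivial action for `F → F / K`,
                `K := {w ∈ F | 𝒜 w ∈ F'}`.]
* `s33r_nilp` : for a filtration `Fil 0 = ⊤ ⊇ Fil 1 ⊇ … ⊇ Fil N = ⊥` with these properties,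
                `𝒜 ^ N` kills `X⁰`;
* `s33r_nilp_sub` : `𝒜 ^ N (σ y - y) = 0` for all `σ ∈ Γ`, `y ∈ G`  (`(I - 1) G ⊆ X⁰`).
-/
import Mathlib
import Fermat.Agent.S56.Flat.Ord.Line

set_option autoImplicit false
set_option linter.unusedSectionVars false
set_option linter.style.haveILetI false

noncomputable section

namespace Fermat.Agent.S33

open Fermat.Agent.MZ Fermat.Agent.S56

section

variable {r : ℕ} {O : Type} [CommRing O] [IsDomain O] [IsDiscreteValuationRing O]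
  {L : Type} [Field L] [Algebra O L] {A : ValuationSubring L}
  {Γ : Type} [Group Γ] [MulSemiringAction Γ L]
  {G : Type} [AddCommGroup G] [DistribMulAction Γ G] {H : Subalgebra O (G → L)}

/-- `𝒜 := τ0 - c` on a `Γ`-module. -/
def s33r_A (τ0 : Γ) (c : ℤ) : G →+ G where
  toFun x := τ0 • x - c • x
  map_zero' := by rw [smul_zero, smul_zero, sub_zero]
  map_add' x y := by rw [smul_add, smul_add]; abel

theorem s33r_A_apply (τ0 : Γ) (c : ℤ) (x : G) : s33r_A τ0 c x = τ0 • x - c • x := rfl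

/-- `𝒜` preserves every `Γ`-stable subgroup. -/
theorem s33r_A_mem (τ0 : Γ) (c : ℤ) (F : AddSubgroup G) (hF : ∀ σ : Γ, ∀ x ∈ F, σ • x ∈ F)
    {x : G} (hx : x ∈ F) : s33r_A τ0 c x ∈ F := by
  rw [s33r_A_apply]
  exact F.sub_mem (hF τ0 x hx) (F.zsmul_mem hx c)

/-- the `Γ`-action on a `Γ`-stable subgroup. -/
@[reducible] def s33r_act (F : AddSubgroup G) (hF : ∀ σ : Γ, ∀ x ∈ F, σ • x ∈ F) :
    DistribMulAction Γ F where
  smul σ x := ⟨σ • (x : G), hF σ x x.2⟩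
  one_smul x := Subtype.ext (one_smul Γ (x : G))
  mul_smul σ τ x := Subtype.ext (mul_smul σ τ (x : G))
  smul_zero σ := Subtype.ext (smul_zero σ)
  smul_add σ x y := Subtype.ext (smul_add σ (x : G) (y : G))

/-- **one step**: `𝒜 (X⁰ ∩ F) ⊆ X⁰ ∩ F'`. -/
theorem s33r_step [Finite G] (hctx : mzo_Ctx r O L A Γ) (hr2 : r ≠ 2)
    (hH : mzo_IsOrder A Γ G H) (F F' : AddSubgroup G)
    (hF : ∀ σ : Γ, ∀ x ∈ F, σ • x ∈ F) (hF' : ∀ σ : Γ, ∀ x ∈ F', σ • x ∈ F')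
    (hrF : ∀ x ∈ F, r • x ∈ F') (τ0 : Γ) (c : ℤ)
    (hA : ∀ σ : Γ, ∀ z ∈ F, s33r_A τ0 c (σ • z - z) ∈ F')
    {x : G} (hx : x ∈ s56fl_X0 hH) (hxF : x ∈ F) :
    s33r_A τ0 c x ∈ s56fl_X0 hH ∧ s33r_A τ0 c x ∈ F' := by
  constructor
  · rw [s33r_A_apply]
    exact (s56fl_X0 hH).sub_mem (s56fl_X0_smul_mem hctx hH τ0 hx) ((s56fl_X0 hH).zsmul_mem hx c)
  · letI : DistribMulAction Γ F := s33r_act F hF
    have hH' : mzo_IsOrder A Γ F (mzo_restr (⇑F.subtype) H) :=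
      mzo_restr_isOrder F.subtype F.subtype_injective (fun _ _ => rfl) hH
    have hw : (⟨x, hxF⟩ : F) ∈ s56fl_X0 hH' := s56fo_X0_restr F.subtype hH hH' hx
    -- `K := {w ∈ F | 𝒜 w ∈ F'}`
    set K : AddSubgroup F := F'.comap ((s33r_A τ0 c).comp F.subtype) with hK
    have hmemK : ∀ w : F, w ∈ K ↔ s33r_A τ0 c (w : G) ∈ F' := fun w => Iff.rfl
    have hπe : ∀ (σ : Γ) (w : F), QuotientAddGroup.mk' K (σ • w) = QuotientAddGroup.mk' K w := by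
      intro σ w
      rw [QuotientAddGroup.mk'_apply, QuotientAddGroup.mk'_apply, QuotientAddGroup.eq]
      have h1 : -(σ • w) + w = -(σ • w - w) := by abel
      rw [h1]
      apply K.neg_mem
      rw [hmemK]
      exact hA σ w w.2
    have hrx : r • QuotientAddGroup.mk' K (⟨x, hxF⟩ : F) = 0 := by
      rw [← map_nsmul, QuotientAddGroup.mk'_apply, QuotientAddGroup.eq_zero_iff, hmemK]
      exact s33r_A_mem τ0 c F' hF' (hrF x hxF)
    have h0 := s56fo_rel_triv hctx hr2 hH' (QuotientAddGroup.mk' K)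
      (QuotientAddGroup.mk'_surjective K) hπe hw hrx
    rw [QuotientAddGroup.mk'_apply, QuotientAddGroup.eq_zero_iff, hmemK] at h0
    exact h0

/-- **(OLD)** `𝒜 ^ N` kills the connected part. -/
theorem s33r_nilp [Finite G] (hctx : mzo_Ctx r O L A Γ) (hr2 : r ≠ 2)
    (hH : mzo_IsOrder A Γ G H) (Fil : ℕ → AddSubgroup G)
    (hstab : ∀ (j : ℕ) (σ : Γ), ∀ x ∈ Fil j, σ • x ∈ Fil j)
    (h0 : Fil 0 = ⊤) {N : ℕ} (hN : Fil N = ⊥)
    (hr : ∀ j : ℕ, ∀ x ∈ Fil j, r • x ∈ Fil (j + 1)) (τ0 : Γ) (c : ℤ)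
    (hA : ∀ (j : ℕ) (σ : Γ), ∀ z ∈ Fil j, s33r_A τ0 c (σ • z - z) ∈ Fil (j + 1))
    {x : G} (hx : x ∈ s56fl_X0 hH) : (⇑(s33r_A τ0 c))^[N] x = 0 := by
  have key : ∀ j : ℕ, (⇑(s33r_A τ0 c))^[j] x ∈ s56fl_X0 hH ∧ (⇑(s33r_A τ0 c))^[j] x ∈ Fil j := by
    intro j
    induction j with
    | zero =>
      refine ⟨hx, ?_⟩
      rw [h0]
      exact AddSubgroup.mem_top _
    | succ j ih =>
      rw [Function.iterate_succ_apply']
      exact s33r_step hctx hr2 hH (Fil j) (Fil (j + 1)) (hstab j) (hstab (j + 1)) (hr j) τ0 c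
        (hA j) ih.1 ih.2
  have := (key N).2
  rwa [hN, AddSubgroup.mem_bot] at this

/-- **(OLD)** `𝒜 ^ N` kills `(I - 1) G`. -/
theorem s33r_nilp_sub [Finite G] (hctx : mzo_Ctx r O L A Γ) (hr2 : r ≠ 2)
    (hH : mzo_IsOrder A Γ G H) (Fil : ℕ → AddSubgroup G)
    (hstab : ∀ (j : ℕ) (σ : Γ), ∀ x ∈ Fil j, σ • x ∈ Fil j)
    (h0 : Fil 0 = ⊤) {N : ℕ} (hN : Fil N = ⊥)
    (hr : ∀ j : ℕ, ∀ x ∈ Fil j, r • x ∈ Fil (j + 1)) (τ0 : Γ) (c : ℤ)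
    (hA : ∀ (j : ℕ) (σ : Γ), ∀ z ∈ Fil j, s33r_A τ0 c (σ • z - z) ∈ Fil (j + 1))
    (σ : Γ) (y : G) : (⇑(s33r_A τ0 c))^[N] (σ • y - y) = 0 :=
  s33r_nilp hctx hr2 hH Fil hstab h0 hN hr τ0 c hA (s56fl_smul_sub_mem_X0 hctx hH σ y)

end

end Fermat.Agent.S33
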