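/-
Project S33 (ordinary at `p ∥ N`), cell (OLD) = [S33-ORD] + [S33-REL] (helper17).  Prefix `s33o_`.
Namespace `Fermat.Agent.S33`.

**(OLD)**: let `p ∤ M'` be odd, `P` a place of `Q̄` over `p`, `Γ = I_P`, `τ0 ∈ Γ`, `c : ℤ`,
`𝒜 = τ0 - c`.  Let `B` be a `G_ℚ`-module embedded equivariantly in a finite power of
`J₀(M')[p ^ k]`, with a finite decreasing filtration by `Γ`-stable subgroups such that
`p • Fil j ⊆ Fil (j + 1)` and `𝒜 ((σ - 1) Fil j) ⊆ Fil (j + 1)`.  Then `𝒜 ^ N` kills `(σ - 1) B`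
(`σ ∈ Γ`) and, more generally, the connected part of `B`.

This is the glue of `s33o_order` (`S33/Ord.lean`: the order of `B` at `P`, from S19) and
`s33r_nilp_sub` (`S33/Rel.lean`, helper13: the (REL) lemma of S56 along the filtration).
-/
import Mathlib
import Fermat.Agent.S33.Ord
import Fermat.Agent.S33.Rel

set_option autoImplicit false
set_option linter.unusedSectionVars false

noncomputable section

namespace Fermat.Agent.S33

open Fermat.Agent.FF Fermat.Agent.MZ Fermat.Agent.S56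

/-- **(OLD)**: `𝒜 ^ N` kills `(I_P - 1) B` for a `G_ℚ`-submodule `B` of a finite power of
`J₀(M')[p ^ k]` (`p ∤ M'` odd) with a filtration whose graded pieces are killed by `p` and on which
`𝒜` kills `I_P - 1`. -/
theorem s33o_old (M' p : ℕ) [NeZero M'] [Fact p.Prime] (hp2 : p ≠ 2) (hpM : ¬ p ∣ M') (k s : ℕ)
    {B : Type} [AddCommGroup B] [DistribMulAction ff_GQ B]
    (j : B →+ (Fin s → ↥(Submodule.torsionBy ℤ (ModularCurve.JZero M') ((p : ℤ) ^ k))))
    (hj : Function.Injective j) (hje : ∀ (σ : ff_GQ) (b : B), j (σ • b) = σ • j b)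
    (P : ValuationSubring ff_Qb) (hP : P.LiesOverPrime p)
    (Fil : ℕ → AddSubgroup B)
    (hstab : ∀ (i : ℕ) (σ : ↥(P.inertiaSubgroupIn ℚ)), ∀ x ∈ Fil i, σ • x ∈ Fil i)
    (h0 : Fil 0 = ⊤) {N : ℕ} (hN : Fil N = ⊥)
    (hr : ∀ i : ℕ, ∀ x ∈ Fil i, p • x ∈ Fil (i + 1))
    (τ0 : ↥(P.inertiaSubgroupIn ℚ)) (c : ℤ)
    (hA : ∀ (i : ℕ) (σ : ↥(P.inertiaSubgroupIn ℚ)), ∀ z ∈ Fil i,
      s33r_A τ0 c (σ • z - z) ∈ Fil (i + 1))
    (σ : ↥(P.inertiaSubgroupIn ℚ)) (y : B) :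
    (⇑(s33r_A τ0 c))^[N] (σ • y - y) = 0 := by
  have hfin : Finite B := s33o_finite M' p k s j hj
  have : IsDiscreteValuationRing ↥(ffi_O P ↥(ffi_L P)) := mzg_ctx_dvr p P hP
  obtain ⟨HP, hHP⟩ := s33o_order M' p hpM k s j hj hje P hP
  exact s33r_nilp_sub (mzg_ctx p P hP) hp2 hHP Fil hstab h0 hN hr τ0 c hA σ y

/-- iterates of an additive map are additive -/
theorem s33o_iter_add {B : Type} [AddCommGroup B] (f : B →+ B) (n : ℕ) (x y : B) :
    (⇑f)^[n] (x + y) = (⇑f)^[n] x + (⇑f)^[n] y := by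
  induction n generalizing x y with
  | zero => rfl
  | succ n ih => rw [Function.iterate_succ_apply, Function.iterate_succ_apply,
      Function.iterate_succ_apply, map_add, ih]

theorem s33o_iter_zero {B : Type} [AddCommGroup B] (f : B →+ B) (n : ℕ) :
    (⇑f)^[n] (0 : B) = 0 := by
  induction n with
  | zero => rfl
  | succ n ih => rw [Function.iterate_succ_apply, map_zero, ih]

theorem s33o_iter_neg {B : Type} [AddCommGroup B] (f : B →+ B) (n : ℕ) (x : B) :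
    (⇑f)^[n] (-x) = -(⇑f)^[n] x := by
  induction n generalizing x with
  | zero => rfl
  | succ n ih => rw [Function.iterate_succ_apply, Function.iterate_succ_apply, map_neg, ih]

/-- **(OLD)**, closure form: `𝒜 ^ N` kills the subgroup `(I_P - 1) B` generated by the
`σ • y - y`. -/
theorem s33o_old_closure (M' p : ℕ) [NeZero M'] [Fact p.Prime] (hp2 : p ≠ 2) (hpM : ¬ p ∣ M')
    (k s : ℕ) {B : Type} [AddCommGroup B] [DistribMulAction ff_GQ B]
    (j : B →+ (Fin s → ↥(Submodule.torsionBy ℤ (ModularCurve.JZero M') ((p : ℤ) ^ k))))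
    (hj : Function.Injective j) (hje : ∀ (σ : ff_GQ) (b : B), j (σ • b) = σ • j b)
    (P : ValuationSubring ff_Qb) (hP : P.LiesOverPrime p)
    (Fil : ℕ → AddSubgroup B)
    (hstab : ∀ (i : ℕ) (σ : ↥(P.inertiaSubgroupIn ℚ)), ∀ x ∈ Fil i, σ • x ∈ Fil i)
    (h0 : Fil 0 = ⊤) {N : ℕ} (hN : Fil N = ⊥)
    (hr : ∀ i : ℕ, ∀ x ∈ Fil i, p • x ∈ Fil (i + 1))
    (τ0 : ↥(P.inertiaSubgroupIn ℚ)) (c : ℤ)
    (hA : ∀ (i : ℕ) (σ : ↥(P.inertiaSubgroupIn ℚ)), ∀ z ∈ Fil i,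
      s33r_A τ0 c (σ • z - z) ∈ Fil (i + 1))
    {x : B} (hx : x ∈ AddSubgroup.closure
      {b : B | ∃ (σ : ↥(P.inertiaSubgroupIn ℚ)) (y : B), b = σ • y - y}) :
    (⇑(s33r_A τ0 c))^[N] x = 0 := by
  induction hx using AddSubgroup.closure_induction with
  | mem b hb =>
    obtain ⟨σ, y, rfl⟩ := hb
    exact s33o_old M' p hp2 hpM k s j hj hje P hP Fil hstab h0 hN hr τ0 c hA σ y
  | zero => exact s33o_iter_zero _ _
  | add a b _ _ ha hb => rw [s33o_iter_add, ha, hb, add_zero]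
  | neg a _ ha => rw [s33o_iter_neg, ha, neg_zero]

end Fermat.Agent.S33
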