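/-
Project S33 (ordinary at `p ∥ N`), cell (OLD), the form consumed by [ALG-KEY] (helper17).
Prefix `s33o_`.  Namespace `Fermat.Agent.S33`.

**(OLD), kernel form.**  Let `p ∤ M'` be odd, `P` a place of `Q̄` over `p`, `Γ = I_P`, `τ0 ∈ Γ`,
`c : ℤ`, `𝒜 = τ0 - c`.  Let `G1` be ANY `G_ℚ`-module with an equivariant additive map
`ψ : G1 → (J₀(M')[p ^ k]) ^ s` and a finite decreasing filtration `Fil` by `Γ`-stable subgroups,
`Fil 0 = ⊤`, `Fil N ≤ ker ψ`, `p • Fil i ⊆ Fil (i + 1)`, `𝒜 ((σ - 1) Fil i) ⊆ Fil (i + 1)`.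
Then `ψ (𝒜 ^ N x) = 0` for every `x ∈ (Γ - 1) G1`.

(`B1 := ψ (G1)` with the image filtration satisfies the hypotheses of `s33o_old_closure`.)
-/
import Mathlib
import Fermat.Agent.S33.Old

set_option autoImplicit false
set_option linter.unusedSectionVars false

noncomputable section

namespace Fermat.Agent.S33

open Fermat.Agent.FF Fermat.Agent.MZ Fermat.Agent.S56

section Abs

variable {Γ : Type} [Group Γ] {G1 B : Type} [AddCommGroup G1] [AddCommGroup B]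
  [DistribMulAction Γ G1] [DistribMulAction Γ B]

/-- `𝒜` commutes with equivariant additive maps -/
theorem s33o_A_map (ψ : G1 →+ B) (hψ : ∀ (σ : Γ) (g : G1), ψ (σ • g) = σ • ψ g) (τ0 : Γ) (c : ℤ)
    (g : G1) : ψ (s33r_A τ0 c g) = s33r_A τ0 c (ψ g) := by
  rw [s33r_A_apply, s33r_A_apply, map_sub, hψ, map_zsmul]

theorem s33o_A_iter_map (ψ : G1 →+ B) (hψ : ∀ (σ : Γ) (g : G1), ψ (σ • g) = σ • ψ g) (τ0 : Γ)
    (c : ℤ) (n : ℕ) (g : G1) :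
    ψ ((⇑(s33r_A τ0 c))^[n] g) = (⇑(s33r_A τ0 c))^[n] (ψ g) := by
  induction n generalizing g with
  | zero => rfl
  | succ n ih =>
    rw [Function.iterate_succ_apply, Function.iterate_succ_apply, ih, s33o_A_map ψ hψ]

/-- the image of `(Γ - 1) G1` lies in `(Γ - 1) B` -/
theorem s33o_map_closure (ψ : G1 →+ B) (hψ : ∀ (σ : Γ) (g : G1), ψ (σ • g) = σ • ψ g)
    {x : G1} (hx : x ∈ AddSubgroup.closure {b : G1 | ∃ (σ : Γ) (y : G1), b = σ • y - y}) :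
    ψ x ∈ AddSubgroup.closure {b : B | ∃ (σ : Γ) (y : B), b = σ • y - y} := by
  induction hx using AddSubgroup.closure_induction with
  | mem b hb =>
    obtain ⟨σ, y, rfl⟩ := hb
    refine AddSubgroup.subset_closure ⟨σ, ψ y, ?_⟩
    rw [map_sub, hψ]
  | zero => rw [map_zero]; exact AddSubgroup.zero_mem _
  | add a b _ _ ha hb => rw [map_add]; exact AddSubgroup.add_mem _ ha hb
  | neg a _ ha => rw [map_neg]; exact AddSubgroup.neg_mem _ ha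

end Abs

/-- **(OLD), image form**: `G1 → B` an equivariant surjection, `B` embedded equivariantly in a
finite power of `J₀(M')[p ^ k]`; the filtration lives on `G1`. -/
theorem s33o_old_image (M' p : ℕ) [NeZero M'] [Fact p.Prime] (hp2 : p ≠ 2) (hpM : ¬ p ∣ M')
    (k s : ℕ) {B : Type} [AddCommGroup B] [DistribMulAction ff_GQ B]
    (j : B →+ (Fin s → ↥(Submodule.torsionBy ℤ (ModularCurve.JZero M') ((p : ℤ) ^ k))))
    (hj : Function.Injective j) (hje : ∀ (σ : ff_GQ) (b : B), j (σ • b) = σ • j b)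
    {G1 : Type} [AddCommGroup G1] [DistribMulAction ff_GQ G1]
    (ψ : G1 →+ B) (hψs : Function.Surjective ψ)
    (hψ : ∀ (σ : ff_GQ) (g : G1), ψ (σ • g) = σ • ψ g)
    (P : ValuationSubring ff_Qb) (hP : P.LiesOverPrime p)
    (Fil : ℕ → AddSubgroup G1)
    (hstab : ∀ (i : ℕ) (σ : ↥(P.inertiaSubgroupIn ℚ)), ∀ x ∈ Fil i, σ • x ∈ Fil i)
    (h0 : Fil 0 = ⊤) {N : ℕ} (hN : ∀ x ∈ Fil N, ψ x = 0)
    (hr : ∀ i : ℕ, ∀ x ∈ Fil i, p • x ∈ Fil (i + 1))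
    (τ0 : ↥(P.inertiaSubgroupIn ℚ)) (c : ℤ)
    (hA : ∀ (i : ℕ) (σ : ↥(P.inertiaSubgroupIn ℚ)), ∀ z ∈ Fil i,
      s33r_A τ0 c (σ • z - z) ∈ Fil (i + 1))
    {x : G1} (hx : x ∈ AddSubgroup.closure
      {b : G1 | ∃ (σ : ↥(P.inertiaSubgroupIn ℚ)) (y : G1), b = σ • y - y}) :
    ψ ((⇑(s33r_A τ0 c))^[N] x) = 0 := by
  have hψΓ : ∀ (σ : ↥(P.inertiaSubgroupIn ℚ)) (g : G1), ψ (σ • g) = σ • ψ g :=
    fun σ g => hψ (σ : ff_GQ) g
  have h1 : ∀ (i : ℕ) (σ : ↥(P.inertiaSubgroupIn ℚ)), ∀ x ∈ (Fil i).map ψ,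
      σ • x ∈ (Fil i).map ψ := by
    rintro i σ _ ⟨z, hz, rfl⟩
    exact ⟨σ • z, hstab i σ z hz, hψΓ σ z⟩
  have h2 : (Fil 0).map ψ = ⊤ := by
    rw [h0, ← AddMonoidHom.range_eq_map]
    exact AddMonoidHom.range_eq_top.mpr hψs
  have h3 : (Fil N).map ψ = ⊥ := by
    rw [eq_bot_iff]
    rintro _ ⟨z, hz, rfl⟩
    rw [AddSubgroup.mem_bot]
    exact hN z hz
  have h4 : ∀ i : ℕ, ∀ x ∈ (Fil i).map ψ, p • x ∈ (Fil (i + 1)).map ψ := by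
    rintro i _ ⟨z, hz, rfl⟩
    exact ⟨p • z, hr i z hz, map_nsmul _ _ _⟩
  have h5 : ∀ (i : ℕ) (σ : ↥(P.inertiaSubgroupIn ℚ)), ∀ z ∈ (Fil i).map ψ,
      s33r_A τ0 c (σ • z - z) ∈ (Fil (i + 1)).map ψ := by
    rintro i σ _ ⟨z, hz, rfl⟩
    refine ⟨s33r_A τ0 c (σ • z - z), hA i σ z hz, ?_⟩
    rw [s33o_A_map ψ hψΓ, map_sub, hψΓ]
  have h6 := s33o_map_closure ψ hψΓ hx
  have key := s33o_old_closure M' p hp2 hpM k s j hj hje P hP (fun i => (Fil i).map ψ)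
    h1 h2 h3 h4 τ0 c h5 h6
  rw [s33o_A_iter_map ψ hψΓ]
  exact key

/-- the `G_ℚ`-stability of the range of an equivariant map -/
theorem s33o_range_stable {G1 M : Type} [AddCommGroup G1] [AddCommGroup M]
    [DistribMulAction ff_GQ G1] [DistribMulAction ff_GQ M] (ψ : G1 →+ M)
    (hψ : ∀ (σ : ff_GQ) (g : G1), ψ (σ • g) = σ • ψ g) :
    ∀ σ : ff_GQ, ∀ w ∈ ψ.range, σ • w ∈ ψ.range := by
  rintro σ _ ⟨g, rfl⟩
  exact ⟨σ • g, hψ σ g⟩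

/-- **(OLD), kernel form**: `ψ (𝒜 ^ N x) = 0` for `x ∈ (I_P - 1) G1`. -/
theorem s33o_old_ker (M' p : ℕ) [NeZero M'] [Fact p.Prime] (hp2 : p ≠ 2) (hpM : ¬ p ∣ M')
    (k s : ℕ) {G1 : Type} [AddCommGroup G1] [DistribMulAction ff_GQ G1]
    (ψ : G1 →+ (Fin s → ↥(Submodule.torsionBy ℤ (ModularCurve.JZero M') ((p : ℤ) ^ k))))
    (hψ : ∀ (σ : ff_GQ) (g : G1), ψ (σ • g) = σ • ψ g)
    (P : ValuationSubring ff_Qb) (hP : P.LiesOverPrime p)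
    (Fil : ℕ → AddSubgroup G1)
    (hstab : ∀ (i : ℕ) (σ : ↥(P.inertiaSubgroupIn ℚ)), ∀ x ∈ Fil i, σ • x ∈ Fil i)
    (h0 : Fil 0 = ⊤) {N : ℕ} (hN : ∀ x ∈ Fil N, ψ x = 0)
    (hr : ∀ i : ℕ, ∀ x ∈ Fil i, p • x ∈ Fil (i + 1))
    (τ0 : ↥(P.inertiaSubgroupIn ℚ)) (c : ℤ)
    (hA : ∀ (i : ℕ) (σ : ↥(P.inertiaSubgroupIn ℚ)), ∀ z ∈ Fil i,
      s33r_A τ0 c (σ • z - z) ∈ Fil (i + 1))
    {x : G1} (hx : x ∈ AddSubgroup.closure
      {b : G1 | ∃ (σ : ↥(P.inertiaSubgroupIn ℚ)) (y : G1), b = σ • y - y}) :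
    ψ ((⇑(s33r_A τ0 c))^[N] x) = 0 := by
  letI := s33o_subAct ψ.range (s33o_range_stable ψ hψ)
  have key := s33o_old_image M' p hp2 hpM k s (B := ↥ψ.range) ψ.range.subtype
    Subtype.val_injective (fun _ _ => rfl) ψ.rangeRestrict ψ.rangeRestrict_surjective
    (fun σ g => Subtype.ext (hψ σ g)) P hP Fil hstab h0
    (fun x hx => Subtype.ext (hN x hx)) hr τ0 c hA hx
  exact congrArg Subtype.val key

end Fermat.Agent.S33
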