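/-
Project S33 (ordinary at `p ∥ N`), the assembly, STEP 2 (helper27, architect).  Prefix `s33z_`.

(NILP) `s33s_Nilp H P τ0 k₀` for `N = M' * p`, `p ∤ M'`, from the landed cells:
[S33-CAR+] `s33c_main_Q` (helper18/helper22), (OLD)+[ALG-KEY] `s33tf_key` (helper17/helper19/helper27),
(GEO) `s33g_nilp_fam1` (helper9), (TOP-C) `s33tr_blr_hyp`, (TOP-NILP) `s33tr_nilp_of` (helper19).
Then `s33z_main` = `s33s_step1` ∘ `s33z_nilp`: the frozen statement S33.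
-/
import Mathlib
import Fermat.Statements.S33
import Fermat.Agent.S33.Top.Step1
import Fermat.Agent.S33.Top.Fin
import Fermat.Agent.S33.Top.Res
import Fermat.Agent.S33.Car.MainQ
import Fermat.Agent.S33.Geo.Nilp

set_option autoImplicit false
set_option linter.unusedSectionVars false
set_option linter.style.haveILetI false

noncomputable section

namespace Fermat.Agent.S33

open IsLocalRing Fermat.Agent.JT3 Fermat.Agent.SS Fermat.Agent.FF Fermat.Agent.S44 ModularCurve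

section Geo

/-- the hypothesis `hgeo` of `s33tf_key`, from (GEO) `s33g_nilp_fam1`. -/
theorem s33z_geo (M' p : ℕ) [NeZero M'] [NeZero p] (hp : p.Prime) (hp2' : ¬ 2 ∣ p)
    (hpM : ¬ p ∣ M') (P : ValuationSubring ff_Qb) (hP : P.LiesOverPrime p)
    (τ0' : ↥(P.inertiaSubgroupIn ℚ)) (k₀ : ℕ)
    (hk₀ : ∀ μ : ff_Qb, μ ^ p = 1 → (τ0' : ff_GQ) μ = μ ^ k₀) (M m : ℕ)
    (G1' : AddSubgroup (Fin m → ↥(Submodule.torsionBy ℤ (JZero (M' * p)) ((p : ℤ) ^ M))))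
    (hG1 : ∀ σ : ff_GQ, ∀ w ∈ G1', σ • w ∈ G1') :
    letI := s33o_subAct G1' hG1
    ∀ y ∈ s33a_aug ↥(P.inertiaSubgroupIn ℚ) ↥G1', s33tf_Psi M' p M m y.1 = 0 →
      (⇑(s33a_A (G := ↥G1') τ0' (k₀ : ℤ)))^[M] y = 0 := by
  letI := s33o_subAct G1' hG1
  intro y hy hΨ
  have hev : ∀ (i : Fin m) (σ : ↥(P.inertiaSubgroupIn ℚ)) (y : ↥G1'),
      s33tf_coord (M' * p) p M m G1' i (σ • y) = σ • s33tf_coord (M' * p) p M m G1' i y :=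
    fun i σ y => rfl
  exact s33g_nilp_fam1 M' p P hp hpM hP hp2' M τ0' k₀ hk₀
    (s33tf_coord (M' * p) p M m G1') hev
    (s33tf_coord_inj (M' * p) p M m G1') (s33tf_pow_smul (M' * p) p M m G1') hy
    ((s33tf_Psi_eq_zero_iff M' p M m y.1).mp hΨ)

end Geo

section Nilp

variable {p : ℕ} {M' : ℕ} [NeZero (M' * p)] {S : Finset ℕ}
  {𝒪 : Type} [CommRing 𝒪] [IsDomain 𝒪] [IsDiscreteValuationRing 𝒪]
  [IsAdicComplete (IsLocalRing.maximalIdeal 𝒪) 𝒪]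
  {θ : CuspForm.heckeAlgebra (M' * p) 2 (↑S : Set ℕ) →+* IsLocalRing.ResidueField 𝒪}
  {T : Type} [CommRing T] [IsLocalRing T] [IsNoetherianRing T]
  [IsAdicComplete (IsLocalRing.maximalIdeal T) T] [Algebra 𝒪 T] [IsLocalHom (algebraMap 𝒪 T)]
  [Module.Finite 𝒪 T] [Module.Free 𝒪 T]

/-- **STEP 2**: (NILP) at level `N = M' * p`. -/
theorem s33z_nilp [NeZero M'] [NeZero p] [Finite (IsLocalRing.ResidueField 𝒪)] [CharZero 𝒪]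
    (hp : p.Prime) (hp2 : p ≠ 2) (hp𝒪 : (p : 𝒪) ∈ IsLocalRing.maximalIdeal 𝒪) (hpM : ¬ p ∣ M')
    (hNS : ∀ q : ℕ, q.Prime → q ∣ M' * p → q ∈ S)
    (H : CuspForm.HeckeGaloisRepDatum (M' * p) (↑S : Set ℕ) 𝒪 θ T)
    (hres : (GaloisRepAdic.ofResidualGaloisRep H.ρ.residual).IsOrdinaryAt p)
    (P : ValuationSubring ff_Qb) (hP : P.LiesOverPrime p) (τ0 : ff_GQ)
    (hτ0 : τ0 ∈ P.inertiaSubgroupIn ℚ) (k₀ : ℕ)
    (hk₀ : ∀ μ : ff_Qb, μ ^ p = 1 → τ0 μ = μ ^ k₀) :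
    s33s_Nilp H P τ0 (k₀ : ℤ) := by
  haveI : Fact p.Prime := ⟨hp⟩
  have hpT : (p : T) ∈ maximalIdeal T := by
    have h1 := map_nonunit (algebraMap 𝒪 T) (p : 𝒪) hp𝒪
    rwa [map_natCast] at h1
  have hpS : p ∈ S := hNS p hp (dvd_mul_left p M')
  have hp2' : ¬ 2 ∣ p := (Nat.prime_dvd_prime_iff_eq Nat.prime_two hp).not.mpr (Ne.symm hp2)
  intro n
  rcases Nat.eq_zero_or_pos n with rfl | hn
  · refine ⟨0, fun σ _ v => ?_⟩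
    rw [pow_zero (maximalIdeal T), Ideal.one_eq_top, Submodule.top_smul]
    exact Submodule.mem_top
  obtain ⟨M, m, K, G1', f', Fil', h0, hK, -, hstab, hr, hfs, hfe, hblr⟩ :=
    s33c_main_Q hp hp𝒪 hpS hNS H n hn
  have hG1 : ∀ σ : ff_GQ, ∀ w ∈ G1', σ • w ∈ G1' := by
    intro σ w hw
    rw [← h0] at hw ⊢
    exact hstab 0 σ w hw
  have hA : ∀ (j : ℕ) (σ : ↥(P.inertiaSubgroupIn ℚ)), ∀ z ∈ Fil' j,
      s33a_A (⟨τ0, hτ0⟩ : ↥(P.inertiaSubgroupIn ℚ)) (k₀ : ℤ) (σ • z - z) ∈ Fil' (j + 1) := by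
    intro j σ z hz
    exact hblr τ0 σ.1 (k₀ : ℤ) (s33tr_blr_hyp H hpT hpS hNS hres P hP hτ0 σ.2 hk₀) j z hz
  have hgeo := s33z_geo M' p hp hp2' hpM P hP (⟨τ0, hτ0⟩ : ↥(P.inertiaSubgroupIn ℚ)) k₀ hk₀ M m
    G1' hG1
  letI := ffc_rm_action H.ρ (maximalIdeal T ^ n)
  have hfsurj : Function.Surjective ((ffc_rm_fV H.ρ (maximalIdeal T ^ n)).comp f') :=
    (ffc_rm_fV_surjective H.ρ (maximalIdeal T ^ n)).comp hfs
  have hfequiv : ∀ (σ : ↥(P.inertiaSubgroupIn ℚ)) (y : ↥G1'),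
      ((ffc_rm_fV H.ρ (maximalIdeal T ^ n)).comp f') ⟨σ.1 • y.1, hG1 σ.1 y.1 y.2⟩ =
        σ • ((ffc_rm_fV H.ρ (maximalIdeal T ^ n)).comp f') y := by
    intro σ y
    exact (congrArg (ffc_rm_fV H.ρ (maximalIdeal T ^ n)) (hfe σ.1 y (hG1 σ.1 y.1 y.2))).trans
      (ffc_rm_fV_equivariant H.ρ (maximalIdeal T ^ n) σ.1 (f' y))
  have key := s33tf_key M' p hp2 hpM M m K M P hP G1' hG1 Fil' h0 hK hstab hr
    (⟨τ0, hτ0⟩ : ↥(P.inertiaSubgroupIn ℚ)) (k₀ : ℤ) hA hgeo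
    ((ffc_rm_fV H.ρ (maximalIdeal T ^ n)).comp f') hfsurj hfequiv
  exact ⟨K + M, s33tr_nilp_of H.ρ (maximalIdeal T ^ n) (P.inertiaSubgroupIn ℚ)
    (⟨τ0, hτ0⟩ : ↥(P.inertiaSubgroupIn ℚ)) (k₀ : ℤ) (K + M) key⟩

end Nilp

section Main

variable {p : ℕ} {N : ℕ} [NeZero N] {S : Finset ℕ}
  {𝒪 : Type} [CommRing 𝒪] [IsDomain 𝒪] [IsDiscreteValuationRing 𝒪]
  [IsAdicComplete (IsLocalRing.maximalIdeal 𝒪) 𝒪]
  {θ : CuspForm.heckeAlgebra N 2 (↑S : Set ℕ) →+* IsLocalRing.ResidueField 𝒪}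
  {T : Type} [CommRing T] [IsLocalRing T] [IsNoetherianRing T]
  [IsAdicComplete (IsLocalRing.maximalIdeal T) T] [Algebra 𝒪 T] [IsLocalHom (algebraMap 𝒪 T)]
  [Module.Finite 𝒪 T] [Module.Free 𝒪 T]

/-- **the statement S33.** -/
theorem s33z_main [Finite (IsLocalRing.ResidueField 𝒪)] [CharZero 𝒪]
    (hp : p.Prime) (hp2 : p ≠ 2) (hp𝒪 : (p : 𝒪) ∈ IsLocalRing.maximalIdeal 𝒪)
    (hN : p ∣ N ∧ ¬ p ^ 2 ∣ N) (hNS : ∀ q : ℕ, q.Prime → q ∣ N → q ∈ S)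
    (H : CuspForm.HeckeGaloisRepDatum N (↑S : Set ℕ) 𝒪 θ T)
    (hres : (GaloisRepAdic.ofResidualGaloisRep H.ρ.residual).IsOrdinaryAt p) :
    H.ρ.IsOrdinaryAt p := by
  obtain ⟨M', hM'⟩ := hN.1
  have hNM : N = M' * p := by rw [hM', mul_comm]
  subst hNM
  have hM0 : M' ≠ 0 := by
    rintro rfl
    exact NeZero.ne (0 * p) (zero_mul p)
  haveI : NeZero M' := ⟨hM0⟩
  haveI : NeZero p := ⟨hp.ne_zero⟩
  have hpM : ¬ p ∣ M' := by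
    rintro ⟨t, rfl⟩
    apply hN.2
    exact ⟨t, by ring⟩
  exact s33s_step1 H hp hp2 hp𝒪 hN hNS hres
    (fun P hP τ0 hτ0 k₀ hk₀ _ => s33z_nilp hp hp2 hp𝒪 hpM hNS H hres P hP τ0 hτ0 k₀ hk₀)

end Main

end Fermat.Agent.S33
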