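/-
Project S33 (ordinarity at `p ∥ N` of the Hecke–Galois datum), cell [S33-TOP] (helper25).
Prefix `s33_`.  Namespace `Fermat.Agent.S33`.

THE SEAMS.  Built on helper27's `S33/Alg.lean` (`s33a_top`, `s33a_nilp_bridge`), helper19's
`S33/Top/Loc.lean` and helper5's `S33/Top/Tau0.lean`.

* `s33_lift_basis`   : a basis of `k ⊗ V` lifts to a basis of the free module `V` over the local ring `T`;
* `s33_NilpAt H hpT P τ0` : for every `n` some power of `ρ τ0 - ε τ0` kills `(I_P - 1) V` modulo `𝔪 ^ n V`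
                       (`ε = cya_eps p T hpT` the cyclotomic character);
* **`s33_main`**     : `(∀ P ∣ p, ∀ τ0 ∈ I_P, s33_NilpAt H hpT P τ0) → H.ρ.IsOrdinaryAt p` — the frozen
                       conclusion of S33 from the nilpotence statement;
* `s33_FinAt H P τ0 n c k` : the finite-level integer form: `(τ0 - c) ^ k` kills `σ • x - x`
                       (`σ ∈ I_P`, `x ∈ V / 𝔪 ^ n V` with the action `ffc_rm_action`);
* `s33_nilpAt_of_fin` : `s33_NilpAt` from `s33_FinAt` at the integers `c_n ≡ ε τ0 mod p ^ n`.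
-/
import Mathlib
import Fermat.Statements.S33
import Fermat.Agent.S33.Alg
import Fermat.Agent.S33.Top.Loc
import Fermat.Agent.S33.Top.Tau0

set_option autoImplicit false
set_option linter.unusedSectionVars false
set_option linter.style.haveILetI false

noncomputable section

namespace Fermat.Agent.S33

open IsLocalRing Fermat.Agent.JT3 Fermat.Agent.SS Fermat.Agent.FF Fermat.Agent.S44
open scoped TensorProduct

/-! ### abstract: lifting a residual basis -/

section Abstract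

variable {T V : Type} [CommRing T] [IsLocalRing T] [AddCommGroup V] [Module T V]
  [Module.Free T V] [Module.Finite T V]

/-- a basis of `k ⊗ V` lifts to a basis of `V`. -/
theorem s33_lift_basis
    (bk : Module.Basis (Fin 2) (ResidueField T) (ResidueField T ⊗[T] V)) :
    ∃ b : Module.Basis (Fin 2) T V, ∀ i, (1 : ResidueField T) ⊗ₜ[T] b i = bk i := by
  have hsurj : Function.Surjective (TensorProduct.mk T (ResidueField T) V 1) :=
    TensorProduct.mk_surjective T V (ResidueField T) residue_surjective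
  choose v hv using fun i => hsurj (bk i)
  have hcomp : (TensorProduct.mk T (ResidueField T) V 1) ∘ v = bk := funext hv
  have hli : LinearIndependent T v := by
    apply Module.IsLocalRing.linearIndependent_of_flat v
    rw [hcomp]
    exact bk.linearIndependent
  have hsp : Submodule.span T (Set.range v) = ⊤ :=
    IsLocalRing.span_eq_top_of_tmul_eq_basis v bk hv
  refine ⟨Module.Basis.mk hli hsp.ge, fun i => ?_⟩
  rw [Module.Basis.mk_apply]
  exact hv i

end Abstract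

section Pow

variable {T : Type*} [CommRing T] {V : Type*} [AddCommGroup V] [Module T V]

/-- changing the scalar by an element of `J` does not change the powers modulo `J V`. -/
theorem s33_pow_sub_mem (J : Ideal T) (X : Module.End T V) {d : T} (hd : d ∈ J) (k : ℕ) (x : V) :
    ((X - d • (1 : Module.End T V)) ^ k) x - (X ^ k) x ∈ J • (⊤ : Submodule T V) := by
  induction k generalizing x with
  | zero => rw [pow_zero, pow_zero, sub_self]; exact Submodule.zero_mem _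
  | succ k ih =>
    rw [pow_succ, pow_succ, Module.End.mul_apply, Module.End.mul_apply, LinearMap.sub_apply,
      LinearMap.smul_apply, Module.End.one_apply, map_sub, map_smul]
    have h1 := ih (X x)
    have h2 : d • ((X - d • (1 : Module.End T V)) ^ k) x ∈ J • (⊤ : Submodule T V) :=
      Submodule.smul_mem_smul hd Submodule.mem_top
    have h3 : ((X - d • (1 : Module.End T V)) ^ k) (X x) -
        d • ((X - d • (1 : Module.End T V)) ^ k) x - (X ^ k) (X x) =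
        (((X - d • (1 : Module.End T V)) ^ k) (X x) - (X ^ k) (X x)) -
          d • ((X - d • (1 : Module.End T V)) ^ k) x := by abel
    rw [h3]
    exact Submodule.sub_mem _ h1 h2

end Pow

/-! ### the frozen statement from the nilpotence statement -/

section Datum

variable {p : ℕ} {N : ℕ} [NeZero N] {S : Finset ℕ}
  {𝒪 : Type} [CommRing 𝒪] [IsDomain 𝒪] [IsDiscreteValuationRing 𝒪]
  [IsAdicComplete (IsLocalRing.maximalIdeal 𝒪) 𝒪]
  {θ : CuspForm.heckeAlgebra N 2 (↑S : Set ℕ) →+* IsLocalRing.ResidueField 𝒪}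
  {T : Type} [CommRing T] [IsLocalRing T] [IsNoetherianRing T]
  [IsAdicComplete (IsLocalRing.maximalIdeal T) T] [Algebra 𝒪 T] [IsLocalHom (algebraMap 𝒪 T)]
  [Module.Finite 𝒪 T] [Module.Free 𝒪 T]

/-- **[S33-NILP]** at the place `P` and the element `τ0` of its inertia group: for every `n` a power
of `ρ τ0 - ε τ0` kills `(I_P - 1) V` modulo `𝔪 ^ n V`. -/
def s33_NilpAt [Fact p.Prime] (H : CuspForm.HeckeGaloisRepDatum N (↑S : Set ℕ) 𝒪 θ T)
    (hpT : (p : T) ∈ maximalIdeal T) (P : ValuationSubring ff_Qb) (τ0 : ff_GQ) : Prop :=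
  ∀ n : ℕ, ∃ k : ℕ, ∀ σ ∈ P.inertiaSubgroupIn ℚ, ∀ v : H.ρ.V,
    ((H.ρ.ρ τ0 - cya_eps p T hpT τ0 • (1 : Module.End T H.ρ.V)) ^ k) (H.ρ.ρ σ v - v) ∈
      (maximalIdeal T ^ n) • (⊤ : Submodule T H.ρ.V)

/-- the lifted basis: `(I_P - 1) V ⊆ T b₀ + 𝔪 V`. -/
theorem s33_exists_basis (H : CuspForm.HeckeGaloisRepDatum N (↑S : Set ℕ) 𝒪 θ T)
    (hres : (GaloisRepAdic.ofResidualGaloisRep H.ρ.residual).IsOrdinaryAt p)
    (P : ValuationSubring ff_Qb) (hP : P.LiesOverPrime p) :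
    ∃ b : Module.Basis (Fin 2) T H.ρ.V, ∀ σ ∈ P.inertiaSubgroupIn ℚ, ∀ v : H.ρ.V,
      H.ρ.ρ σ v - v ∈ (T ∙ b 0) ⊔ (maximalIdeal T) • (⊤ : Submodule T H.ρ.V) := by
  obtain ⟨bk, -, hI⟩ := s33tl_line H hres P hP
  obtain ⟨b, hb⟩ := s33_lift_basis bk
  refine ⟨b, fun σ hσ v => ?_⟩
  have h1 := hI σ hσ ((1 : ResidueField T) ⊗ₜ[T] v)
  rw [LinearMap.baseChange_tmul, ← TensorProduct.tmul_sub] at h1
  obtain ⟨a, ha⟩ := Submodule.mem_span_singleton.mp h1
  obtain ⟨t, rfl⟩ := residue_surjective a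
  have h2 : (1 : ResidueField T) ⊗ₜ[T] (H.ρ.ρ σ v - v - t • b 0) = 0 := by
    rw [TensorProduct.tmul_sub, ← ha, TensorProduct.tmul_smul, hb 0, sub_eq_zero]
    rfl
  have h3 := s33tl_tmul_eq_zero b h2
  have h4 : H.ρ.ρ σ v - v = t • b 0 + (H.ρ.ρ σ v - v - t • b 0) := by abel
  rw [h4]
  exact Submodule.add_mem_sup (Submodule.smul_mem _ _ (Submodule.mem_span_singleton_self _)) h3

/-- **the frozen conclusion of S33 from [S33-NILP].** -/
theorem s33_main
    (hp : p.Prime) (hp2 : p ≠ 2) (hp𝒪 : (p : 𝒪) ∈ IsLocalRing.maximalIdeal 𝒪)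
    (hN : p ∣ N ∧ ¬ p ^ 2 ∣ N) (hNS : ∀ q : ℕ, q.Prime → q ∣ N → q ∈ S)
    (H : CuspForm.HeckeGaloisRepDatum N (↑S : Set ℕ) 𝒪 θ T)
    (hres : (GaloisRepAdic.ofResidualGaloisRep H.ρ.residual).IsOrdinaryAt p)
    (hnilp : haveI : Fact p.Prime := ⟨hp⟩
      ∀ (P : ValuationSubring ff_Qb), P.LiesOverPrime p → ∀ τ0 ∈ P.inertiaSubgroupIn ℚ,
        s33_NilpAt H (s33t_p_mem hp𝒪) P τ0) :
    H.ρ.IsOrdinaryAt p := by
  haveI : Fact p.Prime := ⟨hp⟩
  have hpT : (p : T) ∈ maximalIdeal T := s33t_p_mem hp𝒪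
  have hpS : p ∈ S := hNS p hp hN.1
  intro P hP
  obtain ⟨τ0, hτ0, hu⟩ := s33tl_exists_tau0 hp2 hpT P hP
  obtain ⟨b, hb⟩ := s33_exists_basis H hres P hP
  refine s33a_top H.ρ.ρ (P.decompositionSubgroup ℚ) (P.inertiaSubgroupIn ℚ) ?_ b hb τ0 hτ0
    (cya_eps p T hpT τ0) hu (s33tl_moves H hpT hpS hNS hu) (hnilp P hP τ0 hτ0)
  intro δ hδ σ hσ
  obtain ⟨x, hx, rfl⟩ := hσ
  have hn : (ValuationSubring.inertiaSubgroup ℚ P).Normal := by
    unfold ValuationSubring.inertiaSubgroup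
    infer_instance
  exact ⟨_, hn.conj_mem x hx ⟨δ, hδ⟩, rfl⟩

/-! ### the finite-level integer form -/

/-- **[S33-FIN]** at `(P, τ0)`, for the ideal `I`, the integer `c` and the exponent `k`: on
`G = V / I V` (with the Galois action `ffc_rm_action`) the operator `(τ0 - c) ^ k` kills every
`σ • x - x`, `σ ∈ I_P`. -/
def s33_FinAt (H : CuspForm.HeckeGaloisRepDatum N (↑S : Set ℕ) 𝒪 θ T)
    (P : ValuationSubring ff_Qb) (τ0 : ff_GQ) (I : Ideal T) (c : ℤ) (k : ℕ) : Prop :=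
  letI := ffc_rm_action H.ρ I
  ∀ σ ∈ P.inertiaSubgroupIn ℚ, ∀ x : H.ρ.V ⧸ I • (⊤ : Submodule T H.ρ.V),
    (⇑(s33a_A (G := H.ρ.V ⧸ I • (⊤ : Submodule T H.ρ.V)) τ0 c))^[k] (σ • x - x) = 0

/-- **[S33-NILP] from [S33-FIN]**: it suffices to find, for every `n`, an integer `c ≡ ε τ0` modulo
`𝔪 ^ n` and an exponent `k` with `s33_FinAt H P τ0 (𝔪 ^ n) c k`. -/
theorem s33_nilpAt_of_fin [Fact p.Prime] (H : CuspForm.HeckeGaloisRepDatum N (↑S : Set ℕ) 𝒪 θ T)
    (hpT : (p : T) ∈ maximalIdeal T) (P : ValuationSubring ff_Qb) (τ0 : ff_GQ)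
    (h : ∀ n : ℕ, ∃ (c : ℤ) (k : ℕ), cya_eps p T hpT τ0 - ((c : ℤ) : T) ∈ maximalIdeal T ^ n ∧
      s33_FinAt H P τ0 (maximalIdeal T ^ n) c k) :
    s33_NilpAt H hpT P τ0 := by
  intro n
  obtain ⟨c, k, hc, hfin⟩ := h n
  refine ⟨k, fun σ hσ v => ?_⟩
  set I : Ideal T := maximalIdeal T ^ n with hI
  letI := ffc_rm_action H.ρ I
  set x : H.ρ.V := H.ρ.ρ σ v - v with hx
  -- the bridge
  have hmk : ∀ (g : ff_GQ) (y : H.ρ.V),
      (Submodule.Quotient.mk (H.ρ.ρ g y) : H.ρ.V ⧸ I • (⊤ : Submodule T H.ρ.V)) =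
        g • (Submodule.Quotient.mk y : H.ρ.V ⧸ I • (⊤ : Submodule T H.ρ.V)) := by
    intro g y
    rw [ffc_rm_smul_def, GaloisRepAdic.levelAction, Submodule.mapQ_apply]
  have h1 : ((H.ρ.ρ τ0 - ((c : ℤ) : T) • (1 : Module.End T H.ρ.V)) ^ k) x ∈
      I • (⊤ : Submodule T H.ρ.V) := by
    refine s33a_nilp_bridge I (H.ρ.ρ τ0) c k x
      (Submodule.mkQ (I • (⊤ : Submodule T H.ρ.V))).toAddMonoidHom ?_
      (⇑(s33a_A (G := H.ρ.V ⧸ I • (⊤ : Submodule T H.ρ.V)) τ0 c)) ?_ ?_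
    · intro y hy
      exact (Submodule.Quotient.mk_eq_zero _).mp hy
    · intro y
      show (Submodule.Quotient.mk (H.ρ.ρ τ0 y - c • y) :
        H.ρ.V ⧸ I • (⊤ : Submodule T H.ρ.V)) = _
      rw [s33a_A_apply, Submodule.Quotient.mk_sub, hmk]
      rfl
    · show (⇑(s33a_A (G := H.ρ.V ⧸ I • (⊤ : Submodule T H.ρ.V)) τ0 c))^[k]
        (Submodule.Quotient.mk x : H.ρ.V ⧸ I • (⊤ : Submodule T H.ρ.V)) = 0
      rw [hx, Submodule.Quotient.mk_sub, hmk]
      exact hfin σ hσ _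
  -- change of the scalar
  have h2 := s33_pow_sub_mem I (H.ρ.ρ τ0 - ((c : ℤ) : T) • (1 : Module.End T H.ρ.V)) hc k x
  have h3 : H.ρ.ρ τ0 - ((c : ℤ) : T) • (1 : Module.End T H.ρ.V) -
      (cya_eps p T hpT τ0 - ((c : ℤ) : T)) • (1 : Module.End T H.ρ.V) =
      H.ρ.ρ τ0 - cya_eps p T hpT τ0 • (1 : Module.End T H.ρ.V) := by
    rw [sub_smul]
    abel
  rw [h3] at h2
  have h4 := Submodule.add_mem _ h2 h1
  rwa [sub_add_cancel] at h4

end Datum

end Fermat.Agent.S33
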