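/-
Project S33 (ordinarity at `p ∥ N` of the Hecke–Galois datum), THE FINAL WIRING (helper25).
Prefix `s33w_`.  Namespace `Fermat.Agent.S33`.

`s33s_Nilp H P τ0 k₀` (the hypothesis of helper27's `s33s_step1`, `S33/Top/Step1.lean`) from

* `hQ`  : the conclusion of helper22's `s33c_main_Q` ((CAR+) at the Tate package, pushed to
          `(Fin m → J₀(N)[p ^ M])`), stated as the proposition `s33w_QStmt H p (𝔪 ^ n)`;
* `hΨ`  : (F2), the map `ψ = ((α_p)_*, (β_p)_*)^m` on `(Fin m → J₀(M' p)[p ^ M])` (helper19);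
* `hC`  : (TOP-C), the identity `(ρ̄ τ0 - k₀)(ρ̄ σ - 1) = 0` in `M₂(T / 𝔪)` (helper19);

through helper27's [ALG-KEY] `s33a_key` with `Γ = I_P`, (OLD) = helper17's `s33o_old_ker`,
(GEO) = helper9's `s33g_nilp_fam`.
-/
import Mathlib
import Fermat.Agent.S33.Top.Step1
import Fermat.Agent.S33.OldMap
import Fermat.Agent.S33.Geo.Nilp

set_option autoImplicit false
set_option linter.unusedSectionVars false
set_option linter.style.haveILetI false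

noncomputable section

namespace Fermat.Agent.S33

open IsLocalRing ModularCurve Fermat.Agent.JT3 Fermat.Agent.SS Fermat.Agent.FF Fermat.Agent.S35

section Datum

variable {p : ℕ} {N : ℕ} [NeZero N] {S : Finset ℕ}
  {𝒪 : Type} [CommRing 𝒪] [IsDomain 𝒪] [IsDiscreteValuationRing 𝒪]
  [IsAdicComplete (IsLocalRing.maximalIdeal 𝒪) 𝒪]
  {θ : CuspForm.heckeAlgebra N 2 (↑S : Set ℕ) →+* IsLocalRing.ResidueField 𝒪}
  {T : Type} [CommRing T] [IsLocalRing T] [IsNoetherianRing T]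
  [IsAdicComplete (IsLocalRing.maximalIdeal T) T] [Algebra 𝒪 T] [IsLocalHom (algebraMap 𝒪 T)]
  [Module.Finite 𝒪 T] [Module.Free 𝒪 T]

/-- the conclusion of (CAR+) at the ideal `I`, pushed to the `p ^ M`-torsion of `J₀(N)`
(= the conclusion of helper22's `s33c_main_Q` / `s33cq_main_I`). -/
def s33w_QStmt (H : CuspForm.HeckeGaloisRepDatum N (↑S : Set ℕ) 𝒪 θ T) (p : ℕ) (I : Ideal T) :
    Prop :=
  ∃ (M m K : ℕ)
    (G1' : AddSubgroup (Fin m → ↥(Submodule.torsionBy ℤ (JZero N) ((p : ℤ) ^ M))))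
    (f' : ↥G1' →+ (Fin 2 → T ⧸ I))
    (Fil' : ℕ → AddSubgroup (Fin m → ↥(Submodule.torsionBy ℤ (JZero N) ((p : ℤ) ^ M)))),
    Fil' 0 = G1' ∧ Fil' K = ⊥ ∧ Antitone Fil' ∧
    (∀ (j : ℕ) (g : ff_GQ), ∀ y ∈ Fil' j, g • y ∈ Fil' j) ∧
    (∀ j : ℕ, ∀ y ∈ Fil' j, p • y ∈ Fil' (j + 1)) ∧
    Function.Surjective f' ∧
    (∀ (g : ff_GQ) (y : ↥G1') (hy : g • y.1 ∈ G1'),
      f' ⟨g • y.1, hy⟩ = (ffc_rm_rho1 H.ρ I g).mulVec (f' y)) ∧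
    (∀ (τ σ : ff_GQ) (c : ℤ),
      (ffc_rm_rho1 H.ρ (maximalIdeal T) τ -
          (c : Matrix (Fin 2) (Fin 2) (T ⧸ maximalIdeal T))) *
        (ffc_rm_rho1 H.ρ (maximalIdeal T) σ - 1) = 0 →
      ∀ j, ∀ y ∈ Fil' j, τ • (σ • y - y) - c • (σ • y - y) ∈ Fil' (j + 1))

/-- `s33r_A` (`S33/Rel.lean`) and `s33a_A` (`S33/Alg.lean`) are the same map. -/
theorem s33w_A_eq {Γ : Type} [Group Γ] {G : Type} [AddCommGroup G] [DistribMulAction Γ G]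
    (τ0 : Γ) (c : ℤ) : (s33r_A τ0 c : G →+ G) = s33a_A τ0 c := rfl

/-- **[S33-FIN]**: on `V / I V`, `I = 𝔪 ^ n`, a power of `τ0 - k₀` kills `(I_P - 1)`. -/
theorem s33w_fin [Finite (IsLocalRing.ResidueField 𝒪)] [CharZero 𝒪]
    (hp : p.Prime) (hp2 : p ≠ 2) (hN : p ∣ N ∧ ¬ p ^ 2 ∣ N)
    (H : CuspForm.HeckeGaloisRepDatum N (↑S : Set ℕ) 𝒪 θ T)
    (P : ValuationSubring ff_Qb) (hP : P.LiesOverPrime p)
    (τ0 : ff_GQ) (hτ0 : τ0 ∈ P.inertiaSubgroupIn ℚ) (k₀ : ℕ)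
    (hk₀ : ∀ μ : ff_Qb, μ ^ p = 1 → τ0 μ = μ ^ k₀)
    (I : Ideal T)
    (hQ : s33w_QStmt H p I)
    (hΨ : ∀ (M' : ℕ) [NeZero M'] [NeZero p] [NeZero (M' * p)] (M m : ℕ),
      ∃ (s : ℕ) (ψ0 : (Fin m → ↥(Submodule.torsionBy ℤ (JZero (M' * p)) ((p : ℤ) ^ M))) →+
          (Fin s → ↥(Submodule.torsionBy ℤ (JZero M') ((p : ℤ) ^ M)))),
        (∀ (σ : ff_GQ) y, ψ0 (σ • y) = σ • ψ0 y) ∧
        ∀ y, ψ0 y = 0 → ∀ i,
          s35p_P1J M' p ((y i : ↥(Submodule.torsionBy ℤ (JZero (M' * p)) ((p : ℤ) ^ M))) :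
            JZero (M' * p)) = 0 ∧
          s35p_P2J M' p ((y i : ↥(Submodule.torsionBy ℤ (JZero (M' * p)) ((p : ℤ) ^ M))) :
            JZero (M' * p)) = 0)
    (hC : ∀ σ ∈ P.inertiaSubgroupIn ℚ,
      (ffc_rm_rho1 H.ρ (maximalIdeal T) τ0 -
          (((k₀ : ℕ) : ℤ) : Matrix (Fin 2) (Fin 2) (T ⧸ maximalIdeal T))) *
        (ffc_rm_rho1 H.ρ (maximalIdeal T) σ - 1) = 0) :
    ∃ k : ℕ, letI := ffc_rm_action H.ρ I
      ∀ σ ∈ P.inertiaSubgroupIn ℚ, ∀ x : H.ρ.V ⧸ I • (⊤ : Submodule T H.ρ.V),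
        (⇑(s33a_A (G := H.ρ.V ⧸ I • (⊤ : Submodule T H.ρ.V)) τ0 ((k₀ : ℕ) : ℤ)))^[k]
          (σ • x - x) = 0 := by
  classical
  haveI : Fact p.Prime := ⟨hp⟩
  haveI : NeZero p := ⟨hp.ne_zero⟩
  -- `N = M' p`
  obtain ⟨M', hNM⟩ : ∃ M', N = M' * p := ⟨N / p, (Nat.div_mul_cancel hN.1).symm⟩
  subst hNM
  have hM'0 : M' ≠ 0 := by
    rintro rfl
    exact NeZero.ne (0 * p) (zero_mul p)
  haveI : NeZero M' := ⟨hM'0⟩
  have hpM : ¬ p ∣ M' := by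
    intro h
    apply hN.2
    rw [pow_two]
    exact Nat.mul_dvd_mul_right h p
  have hp2' : ¬ 2 ∣ p := fun h => hp2 ((Nat.prime_dvd_prime_iff_eq Nat.prime_two hp).mp h).symm
  obtain ⟨M, m, K, G1', f', Fil', hF0, hFK, hFanti, hFstab, hFp, hf's, hf'e, hBLR⟩ := hQ
  obtain ⟨s, ψ0, hψ0e, hψ0k⟩ := hΨ M' M m
  -- the actions
  have hstab0 : ∀ σ : ff_GQ, ∀ w ∈ G1', σ • w ∈ G1' := by
    intro σ w hw
    rw [← hF0] at hw ⊢
    exact hFstab 0 σ w hw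
  letI actG1 : DistribMulAction ff_GQ ↥G1' := s33o_subAct G1' hstab0
  letI actG := ffc_rm_action H.ρ I
  let τ0' : ↥(P.inertiaSubgroupIn ℚ) := ⟨τ0, hτ0⟩
  -- `f`
  let f : ↥G1' →+ (H.ρ.V ⧸ I • (⊤ : Submodule T H.ρ.V)) := (ffc_rm_fV H.ρ I).comp f'
  have hfs : Function.Surjective f := (ffc_rm_fV_surjective H.ρ I).comp hf's
  have hfe : ∀ (σ : ↥(P.inertiaSubgroupIn ℚ)) (y : ↥G1'), f (σ • y) = σ • f y := by
    intro σ y
    show ffc_rm_fV H.ρ I (f' ⟨(σ : ff_GQ) • y.1, hstab0 σ y.1 y.2⟩) = _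
    rw [hf'e, ffc_rm_fV_equivariant]
    rfl
  -- `ψ`
  let ψ : ↥G1' →+ (Fin s → ↥(Submodule.torsionBy ℤ (JZero M') ((p : ℤ) ^ M))) :=
    ψ0.comp G1'.subtype
  have hψe : ∀ (σ : ff_GQ) (y : ↥G1'), ψ (σ • y) = σ • ψ y := fun σ y => hψ0e σ y.1
  have hψe' : ∀ (σ : ↥(P.inertiaSubgroupIn ℚ)) (y : ↥G1'), ψ (σ • y) = σ • ψ y :=
    fun σ y => hψe σ y
  -- (OLD)
  let Fil : ℕ → AddSubgroup ↥G1' := fun j => (Fil' j).comap G1'.subtype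
  have hold : ∀ (σ : ↥(P.inertiaSubgroupIn ℚ)) (y : ↥G1'),
      (⇑(s33a_A (G := Fin s → ↥(Submodule.torsionBy ℤ (JZero M') ((p : ℤ) ^ M))) τ0'
        ((k₀ : ℕ) : ℤ)))^[K] (σ • ψ y - ψ y) = 0 := by
    intro σ y
    have hx : σ • y - y ∈ AddSubgroup.closure
        {b : ↥G1' | ∃ (σ : ↥(P.inertiaSubgroupIn ℚ)) (y : ↥G1'), b = σ • y - y} :=
      AddSubgroup.subset_closure ⟨σ, y, rfl⟩
    have key := s33o_old_ker M' p hp2 hpM M s ψ hψe P hP Fil ?_ ?_ (N := K) ?_ ?_ τ0'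
      ((k₀ : ℕ) : ℤ) ?_ hx
    · rw [s33w_A_eq, s33a_map_iter ψ hψe', map_sub, hψe'] at key
      exact key
    · -- stability
      intro i σ' x hx'
      exact hFstab i σ' x.1 hx'
    · -- `Fil 0 = ⊤`
      rw [eq_top_iff]
      intro x _
      show x.1 ∈ Fil' 0
      rw [hF0]
      exact x.2
    · -- `Fil K` dies
      intro x hx'
      have h1 : x.1 ∈ Fil' K := hx'
      rw [hFK, AddSubgroup.mem_bot] at h1
      have h2 : x = 0 := Subtype.ext h1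
      rw [h2, map_zero]
    · -- `p • Fil i ⊆ Fil (i + 1)`
      intro i x hx'
      exact hFp i x.1 hx'
    · -- the (BLR-step)
      intro i σ' z hz
      exact hBLR τ0 σ' ((k₀ : ℕ) : ℤ) (hC σ' σ'.2) i z.1 hz
  -- (GEO)
  have hgeo : ∀ y ∈ s33a_aug ↥(P.inertiaSubgroupIn ℚ) ↥G1', ψ y = 0 →
      (⇑(s33a_A (G := ↥G1') τ0' ((k₀ : ℕ) : ℤ)))^[M] y = 0 := by
    intro y hy hψy
    obtain ⟨ζ, hζ⟩ := HasEnoughRootsOfUnity.exists_primitiveRoot ff_Qb p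
    let ev : Fin m → ↥G1' →+ JZero (M' * p) := fun i =>
      ((Submodule.torsionBy ℤ (JZero (M' * p)) ((p : ℤ) ^ M)).subtype.toAddMonoidHom).comp
        ((Pi.evalAddMonoidHom _ i).comp G1'.subtype)
    refine s33g_nilp_fam M' p P hp hpM hP hp2' M τ0' k₀ ζ hζ.pow_eq_one (hζ.ne_one hp.one_lt)
      (hk₀ ζ hζ.pow_eq_one) ev ?_ ?_ ?_ hy ?_
    · -- equivariance of the coordinates
      intro i σ y
      rfl
    · -- joint injectivity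
      intro y hy0
      apply Subtype.ext
      funext i
      apply Subtype.ext
      exact hy0 i
    · -- killed by `p ^ M`
      intro y
      apply Subtype.ext
      funext i
      apply Subtype.ext
      have h1 := (y.1 i).2
      rw [Submodule.mem_torsionBy_iff] at h1
      show (p ^ M) • ((y.1 i : ↥(Submodule.torsionBy ℤ (JZero (M' * p)) ((p : ℤ) ^ M))) :
        JZero (M' * p)) = 0
      rw [← h1, ← natCast_zsmul]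
      push_cast
      rfl
    · -- the coordinates lie in `ker ψ`
      intro i
      exact hψ0k y.1 hψy i
  refine ⟨K + M, fun σ hσ x => ?_⟩
  exact s33a_key f hfs hfe ψ hψe' τ0' ((k₀ : ℕ) : ℤ) K M hold hgeo ⟨σ, hσ⟩ x

/-- **THE FINAL WIRING**: the hypothesis `hnilp` of `s33s_step1` at `(P, τ0, k₀)` from (CAR+) `hQ`,
(F2) `hΨ` and (TOP-C) `hC`. -/
theorem s33w_nilp [Finite (IsLocalRing.ResidueField 𝒪)] [CharZero 𝒪]
    (hp : p.Prime) (hp2 : p ≠ 2) (hN : p ∣ N ∧ ¬ p ^ 2 ∣ N)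
    (H : CuspForm.HeckeGaloisRepDatum N (↑S : Set ℕ) 𝒪 θ T)
    (P : ValuationSubring ff_Qb) (hP : P.LiesOverPrime p)
    (τ0 : ff_GQ) (hτ0 : τ0 ∈ P.inertiaSubgroupIn ℚ) (k₀ : ℕ)
    (hk₀ : ∀ μ : ff_Qb, μ ^ p = 1 → τ0 μ = μ ^ k₀)
    (hQ : ∀ n : ℕ, 0 < n → s33w_QStmt H p (maximalIdeal T ^ n))
    (hΨ : ∀ (M' : ℕ) [NeZero M'] [NeZero p] [NeZero (M' * p)] (M m : ℕ),
      ∃ (s : ℕ) (ψ0 : (Fin m → ↥(Submodule.torsionBy ℤ (JZero (M' * p)) ((p : ℤ) ^ M))) →+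
          (Fin s → ↥(Submodule.torsionBy ℤ (JZero M') ((p : ℤ) ^ M)))),
        (∀ (σ : ff_GQ) y, ψ0 (σ • y) = σ • ψ0 y) ∧
        ∀ y, ψ0 y = 0 → ∀ i,
          s35p_P1J M' p ((y i : ↥(Submodule.torsionBy ℤ (JZero (M' * p)) ((p : ℤ) ^ M))) :
            JZero (M' * p)) = 0 ∧
          s35p_P2J M' p ((y i : ↥(Submodule.torsionBy ℤ (JZero (M' * p)) ((p : ℤ) ^ M))) :
            JZero (M' * p)) = 0)
    (hC : ∀ σ ∈ P.inertiaSubgroupIn ℚ,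
      (ffc_rm_rho1 H.ρ (maximalIdeal T) τ0 -
          (((k₀ : ℕ) : ℤ) : Matrix (Fin 2) (Fin 2) (T ⧸ maximalIdeal T))) *
        (ffc_rm_rho1 H.ρ (maximalIdeal T) σ - 1) = 0) :
    s33s_Nilp H P τ0 ((k₀ : ℕ) : ℤ) := by
  intro n
  rcases Nat.eq_zero_or_pos n with rfl | hn
  · refine ⟨0, fun σ _ v => ?_⟩
    rw [pow_zero, Ideal.one_eq_top, Submodule.top_smul]
    trivial
  obtain ⟨k, hk⟩ := s33w_fin hp hp2 hN H P hP τ0 hτ0 k₀ hk₀ (maximalIdeal T ^ n) (hQ n hn) hΨ hC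
  refine ⟨k, fun σ hσ v => ?_⟩
  set I : Ideal T := maximalIdeal T ^ n with hI
  letI := ffc_rm_action H.ρ I
  have hmk : ∀ (g : ff_GQ) (y : H.ρ.V),
      (Submodule.Quotient.mk (H.ρ.ρ g y) : H.ρ.V ⧸ I • (⊤ : Submodule T H.ρ.V)) =
        g • (Submodule.Quotient.mk y : H.ρ.V ⧸ I • (⊤ : Submodule T H.ρ.V)) := by
    intro g y
    rw [ffc_rm_smul_def, GaloisRepAdic.levelAction, Submodule.mapQ_apply]
  refine s33a_nilp_bridge I (H.ρ.ρ τ0) ((k₀ : ℕ) : ℤ) k (H.ρ.ρ σ v - v)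
    (Submodule.mkQ (I • (⊤ : Submodule T H.ρ.V))).toAddMonoidHom ?_
    (⇑(s33a_A (G := H.ρ.V ⧸ I • (⊤ : Submodule T H.ρ.V)) τ0 ((k₀ : ℕ) : ℤ))) ?_ ?_
  · intro y hy
    exact (Submodule.Quotient.mk_eq_zero _).mp hy
  · intro y
    show (Submodule.Quotient.mk (H.ρ.ρ τ0 y - ((k₀ : ℕ) : ℤ) • y) :
      H.ρ.V ⧸ I • (⊤ : Submodule T H.ρ.V)) = _
    rw [s33a_A_apply, Submodule.Quotient.mk_sub, hmk]
    rfl
  · show (⇑(s33a_A (G := H.ρ.V ⧸ I • (⊤ : Submodule T H.ρ.V)) τ0 ((k₀ : ℕ) : ℤ)))^[k]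
      (Submodule.Quotient.mk (H.ρ.ρ σ v - v) : H.ρ.V ⧸ I • (⊤ : Submodule T H.ρ.V)) = 0
    rw [Submodule.Quotient.mk_sub, hmk]
    exact hk σ hσ _

end Datum

end Fermat.Agent.S33
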